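import Fermat.Agent.S55.H26.LocalInvSpec

/-!
# S55 / C4 (helper26): leaf (M1) — (INJ) + (CORES-SURJ) ⟹ (L)

`H²(G, k[G ⧸ U])` is at most a line (by (INJ)), spanned by `z₀` with `ι_U z₀ = 1`; every class of
`H²(G, K)` is `Θ m := (orbitMap m)_* z₀` for one `m ∈ K` (by (CORES-SURJ)); `inv (f_* Θ m) = f m`;
and `Θ (g m) = χ(g) Θ m` since right translation `R_g` on `k[G ⧸ U]` has
`aug ∘ R_g = χ(g) aug`.  So a class killed by all `f : K ⟶ k(χ)` is `Θ m` with `m` in the span
of the `g m' - χ(g) m'`, hence zero.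
-/

set_option autoImplicit false

open CategoryTheory

noncomputable section

namespace Fermat.Agent.S55.H26

open Fermat.Agent.S55.H49

variable {G : Type} [Group G] {k : Type} [Field k]

theorem hlcMap_add (D : LevelDatum G) {A B : Rep.{0} k G} (f g : A ⟶ B) (n : ℕ) :
    hlcMap D (f + g) n = hlcMap D f n + hlcMap D g n := by
  have h : lcMapCoeff D (f + g) = lcMapCoeff D f + lcMapCoeff D g := rfl
  unfold hlcMap
  rw [h, HomologicalComplex.homologyMap_add]
  rfl

theorem hlcMap_smul (D : LevelDatum G) {A B : Rep.{0} k G} (f : A ⟶ B) (c : k) (n : ℕ) :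
    hlcMap D (c • f) n = c • hlcMap D f n := by
  have h : lcMapCoeff D (c • f) = c • lcMapCoeff D f := rfl
  unfold hlcMap
  rw [h]
  have := ShortComplex.homologyMap_smul (R := k)
    ((HomologicalComplex.shortComplexFunctor _ _ n).map (lcMapCoeff D f)) c
  exact congrArg ModuleCat.Hom.hom this

theorem hlcMap_zero (D : LevelDatum G) {A B : Rep.{0} k G} (n : ℕ) :
    hlcMap D (0 : A ⟶ B) n = 0 := by
  have := hlcMap_smul D (0 : A ⟶ B) (0 : k) n
  rwa [zero_smul, zero_smul] at this

/-- Two morphisms out of `k[X]` agree if they agree on the basis. -/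
theorem permRep_hom_ext {U : Subgroup G} {V : Rep.{0} k G} {f g : permRep k U ⟶ V}
    (h : ∀ a : G, f.hom (MonoidAlgebra.single (a : G ⧸ U) 1) =
      g.hom (MonoidAlgebra.single (a : G ⧸ U) 1)) : f = g := by
  refine Rep.hom_ext (Representation.IntertwiningMap.ext ?_)
  refine MonoidAlgebra.lhom_ext' fun x => LinearMap.ext fun r => ?_
  induction x using QuotientGroup.induction_on with
  | H a =>
    have h1 : (MonoidAlgebra.single (a : G ⧸ U) r : MonoidAlgebra k (G ⧸ U)) =
        r • MonoidAlgebra.single (a : G ⧸ U) 1 := by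
      rw [MonoidAlgebra.smul_single, smul_eq_mul, mul_one]
    show f.hom (MonoidAlgebra.single (a : G ⧸ U) r) = g.hom (MonoidAlgebra.single (a : G ⧸ U) r)
    rw [h1, map_smul, map_smul, h a]

theorem orbitMap_single (K : Rep.{0} k G) (U : Subgroup G) (m : K)
    (hm : ∀ s ∈ U, K.ρ s m = m) (a : G) :
    (orbitMap K U m hm).hom (MonoidAlgebra.single (a : G ⧸ U) 1) = K.ρ a m := by
  rw [orbitMap, permHom_single, orbitFun_mk, one_smul]

theorem augChar_single (χ : G →* kˣ) (U : Subgroup G) (hU : ∀ s ∈ U, χ s = 1) (a : G) :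
    (augChar χ U hU).hom (MonoidAlgebra.single (a : G ⧸ U) 1) = (χ a : k) := by
  rw [augChar, permHom_single, charQuot_mk, one_smul]

theorem orbitMap_add (K : Rep.{0} k G) (U : Subgroup G) (m m' : K)
    (hm : ∀ s ∈ U, K.ρ s m = m) (hm' : ∀ s ∈ U, K.ρ s m' = m')
    (hmm : ∀ s ∈ U, K.ρ s (m + m') = m + m') :
    orbitMap K U (m + m') hmm = orbitMap K U m hm + orbitMap K U m' hm' := by
  refine permRep_hom_ext fun a => ?_
  show _ = (orbitMap K U m hm).hom _ + (orbitMap K U m' hm').hom _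
  rw [orbitMap_single, orbitMap_single, orbitMap_single, map_add]

theorem orbitMap_smul (K : Rep.{0} k G) (U : Subgroup G) (c : k) (m : K)
    (hm : ∀ s ∈ U, K.ρ s m = m) (hcm : ∀ s ∈ U, K.ρ s (c • m) = c • m) :
    orbitMap K U (c • m) hcm = c • orbitMap K U m hm := by
  refine permRep_hom_ext fun a => ?_
  show _ = c • (orbitMap K U m hm).hom _
  rw [orbitMap_single, orbitMap_single, map_smul]

/-- `f ∘ (orbit map of m) = f(m) • augmentation`. -/
theorem orbitMap_comp_smul (χ : G →* kˣ) (K : Rep.{0} k G) (U : Subgroup G)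
    (hU : ∀ s ∈ U, χ s = 1) (m : K) (hm : ∀ s ∈ U, K.ρ s m = m) (f : K ⟶ mu χ) :
    orbitMap K U m hm ≫ f = (f.hom m : k) • augChar χ U hU := by
  refine permRep_hom_ext fun a => ?_
  show f.hom ((orbitMap K U m hm).hom _) = (f.hom m : k) • (augChar χ U hU).hom _
  rw [orbitMap_single, augChar_single, Rep.hom_comm_apply, mu_ρ_apply, smul_eq_mul, mul_comm]

/-- The basis vector `[g]` of `k[G ⧸ U]` is fixed by a normal subgroup `U`. -/
theorem single_fixed (U : Subgroup G) [U.Normal] (g : G) (s : G) (hs : s ∈ U) :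
    (permRep k U).ρ s (MonoidAlgebra.single (g : G ⧸ U) (1 : k)) =
      MonoidAlgebra.single (g : G ⧸ U) (1 : k) := by
  have h1 : (permRep k U).ρ s (MonoidAlgebra.single (g : G ⧸ U) (1 : k)) =
      MonoidAlgebra.single (s • (g : G ⧸ U)) (1 : k) := by
    simp
  rw [h1]
  congr 1
  show ((s * g : G) : G ⧸ U) = (g : G ⧸ U)
  rw [QuotientGroup.eq]
  have : (s * g)⁻¹ * g = g⁻¹ * s⁻¹ * g := by group
  rw [this]
  have h2 := (inferInstance : U.Normal).conj_mem s⁻¹ (U.inv_mem hs) g⁻¹
  simpa using h2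

/-- The map `Θ_z : K → H²(K)`, `m ↦ (orbitMap m)_* z`, for a module on which `U` acts
trivially. -/
def thetaMap (D : LevelDatum G) (K : Rep.{0} k G) (U : Subgroup G)
    (hK : ∀ m : K, ∀ s ∈ U, K.ρ s m = m) (z : Hlc D (permRep k U) 2) : K →ₗ[k] Hlc D K 2 where
  toFun m := hlcMap D (orbitMap K U m (hK m)) 2 z
  map_add' m m' := by
    rw [orbitMap_add K U m m' (hK m) (hK m') (hK (m + m')), hlcMap_add]
    rfl
  map_smul' c m := by
    rw [orbitMap_smul K U c m (hK m) (hK (c • m)), hlcMap_smul]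
    rfl

theorem thetaMap_apply (D : LevelDatum G) (K : Rep.{0} k G) (U : Subgroup G)
    (hK : ∀ m : K, ∀ s ∈ U, K.ρ s m = m) (z : Hlc D (permRep k U) 2) (m : K) :
    thetaMap D K U hK z m = hlcMap D (orbitMap K U m (hK m)) 2 z := rfl

/-- **Leaf (M1)**: (INJ) + (CORES-SURJ) ⟹ (L). -/
theorem localInjOfCoresSurj : LocalInjOfCoresSurjLeaf := by
  intro G _ k _ D χ inv _hT hI hC K hK hfin x hx
  obtain ⟨F, hF, hN, hχ, hKtriv, hxspan⟩ := hC K hK hfin x
  have : (D.sub F).Normal := D.sub_normal hN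
  have hinj := hI F hF hN (D.sub F) le_rfl hχ
  by_cases hall : ∀ z : Hlc D (permRep k (D.sub F)) 2, z = 0
  · have h0 : x ∈ (⊥ : Submodule k (Hlc D K 2)) := by
      refine (Submodule.span_le.mpr ?_) hxspan
      rintro _ ⟨⟨m, z⟩, rfl⟩
      show hlcMap D (orbitMap K (D.sub F) m (hKtriv m)) 2 z ∈ _
      rw [hall z, map_zero]
      exact Submodule.zero_mem _
    exact (Submodule.mem_bot k).mp h0
  · simp only [not_forall] at hall
    obtain ⟨z₁, hz₁⟩ := hall
    have hιz₁ : inv (hlcMap D (augChar χ (D.sub F) hχ) 2 z₁) ≠ 0 := fun h => hz₁ (hinj z₁ h)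
    obtain ⟨z₀, hιz₀⟩ : ∃ z₀ : Hlc D (permRep k (D.sub F)) 2,
        inv (hlcMap D (augChar χ (D.sub F) hχ) 2 z₀) = 1 :=
      ⟨(inv (hlcMap D (augChar χ (D.sub F) hχ) 2 z₁))⁻¹ • z₁, by
        rw [map_smul, map_smul, smul_eq_mul, inv_mul_cancel₀ hιz₁]⟩
    have hline : ∀ z : Hlc D (permRep k (D.sub F)) 2,
        z = inv (hlcMap D (augChar χ (D.sub F) hχ) 2 z) • z₀ := by
      intro z
      have h1 : inv (hlcMap D (augChar χ (D.sub F) hχ) 2
          (z - inv (hlcMap D (augChar χ (D.sub F) hχ) 2 z) • z₀)) = 0 := by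
        rw [map_sub, map_sub, map_smul, map_smul, hιz₀, smul_eq_mul, mul_one, sub_self]
      exact sub_eq_zero.mp (hinj _ h1)
    -- `x = Θ m`
    have hxr : x ∈ LinearMap.range (thetaMap D K (D.sub F) hKtriv z₀) := by
      refine (Submodule.span_le.mpr ?_) hxspan
      rintro _ ⟨⟨m, z⟩, rfl⟩
      refine ⟨inv (hlcMap D (augChar χ (D.sub F) hχ) 2 z) • m, ?_⟩
      show _ = hlcMap D (orbitMap K (D.sub F) m (hKtriv m)) 2 z
      rw [map_smul, thetaMap_apply]
      conv_rhs => rw [hline z]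
      rw [map_smul]
    obtain ⟨m, rfl⟩ := hxr
    -- `f m = 0` for all `f`
    have hfm : ∀ f : K ⟶ mu χ, f.hom m = (0 : k) := by
      intro f
      have h1 := hx f
      have h2 : hlcMap D f 2 (thetaMap D K (D.sub F) hKtriv z₀ m) =
          (f.hom m : k) • hlcMap D (augChar χ (D.sub F) hχ) 2 z₀ := by
        rw [thetaMap_apply, ← hlcMap_comp_apply,
          orbitMap_comp_smul χ K (D.sub F) hχ m (hKtriv m) f, hlcMap_smul]
        rfl
      rw [h2, map_smul, hιz₀, smul_eq_mul, mul_one] at h1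
      exact h1
    -- the twisted coinvariant relations
    have hmW : m ∈ Submodule.span k
        (Set.range fun gm : G × K => K.ρ gm.1 gm.2 - (χ gm.1 : k) • gm.2) := by
      by_contra hn
      obtain ⟨φ, hφ, hW⟩ := Submodule.exists_le_ker_of_notMem hn
      have hφeq : ∀ (g : G) (m' : K), φ (K.ρ g m') = (χ g : k) * φ m' := by
        intro g m'
        have h1 : K.ρ g m' - (χ g : k) • m' ∈ Submodule.span k
            (Set.range fun gm : G × K => K.ρ gm.1 gm.2 - (χ gm.1 : k) • gm.2) :=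
          Submodule.subset_span ⟨(g, m'), rfl⟩
        have h2 := hW h1
        rw [LinearMap.mem_ker, map_sub, map_smul, sub_eq_zero] at h2
        exact h2
      let f : K ⟶ mu χ := ConcreteCategory.ofHom (C := Rep.{0} k G) (X := K) (Y := mu χ)
        ⟨φ, fun g => LinearMap.ext fun m' => hφeq g m'⟩
      exact hφ (hfm f)
    -- `Θ` kills the relations
    have hΘW : Submodule.span k
        (Set.range fun gm : G × K => K.ρ gm.1 gm.2 - (χ gm.1 : k) • gm.2) ≤
        LinearMap.ker (thetaMap D K (D.sub F) hKtriv z₀) := by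
      refine Submodule.span_le.mpr ?_
      rintro _ ⟨⟨g, m'⟩, rfl⟩
      rw [SetLike.mem_coe, LinearMap.mem_ker, map_sub, map_smul, sub_eq_zero]
      have hR1 : orbitMap K (D.sub F) (K.ρ g m') (hKtriv _) =
          orbitMap (permRep k (D.sub F)) (D.sub F) (MonoidAlgebra.single (g : G ⧸ D.sub F) 1)
            (fun s hs => single_fixed (D.sub F) g s hs) ≫
            orbitMap K (D.sub F) m' (hKtriv m') := by
        refine permRep_hom_ext fun a => ?_
        show _ = (orbitMap K (D.sub F) m' (hKtriv m')).hom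
          ((orbitMap (permRep k (D.sub F)) (D.sub F) (MonoidAlgebra.single (g : G ⧸ D.sub F) 1)
            (fun s hs => single_fixed (D.sub F) g s hs)).hom _)
        rw [orbitMap_single, orbitMap_single, Rep.hom_comm_apply, orbitMap_single,
          ← Module.End.mul_apply, ← map_mul]
      have hR2 : orbitMap (permRep k (D.sub F)) (D.sub F)
          (MonoidAlgebra.single (g : G ⧸ D.sub F) 1)
            (fun s hs => single_fixed (D.sub F) g s hs) ≫ augChar χ (D.sub F) hχ =
          (χ g : k) • augChar χ (D.sub F) hχ := by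
        refine permRep_hom_ext fun a => ?_
        show (augChar χ (D.sub F) hχ).hom
          ((orbitMap (permRep k (D.sub F)) (D.sub F) (MonoidAlgebra.single (g : G ⧸ D.sub F) 1)
            (fun s hs => single_fixed (D.sub F) g s hs)).hom _) =
            (χ g : k) • (augChar χ (D.sub F) hχ).hom _
        rw [orbitMap_single, Rep.hom_comm_apply, augChar_single, augChar_single, mu_ρ_apply,
          smul_eq_mul, mul_comm]
      have hRz : hlcMap D (orbitMap (permRep k (D.sub F)) (D.sub F)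
          (MonoidAlgebra.single (g : G ⧸ D.sub F) 1)
            (fun s hs => single_fixed (D.sub F) g s hs)) 2 z₀ = (χ g : k) • z₀ := by
        refine sub_eq_zero.mp (hinj _ ?_)
        rw [map_sub, map_sub, ← hlcMap_comp_apply, hR2, hlcMap_smul, map_smul]
        show inv ((χ g : k) • hlcMap D (augChar χ (D.sub F) hχ) 2 z₀) -
          inv ((χ g : k) • hlcMap D (augChar χ (D.sub F) hχ) 2 z₀) = 0
        rw [sub_self]
      rw [thetaMap_apply, thetaMap_apply, hR1, hlcMap_comp_apply, hRz, map_smul]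
    exact LinearMap.mem_ker.mp (hΘW hmW)

end Fermat.Agent.S55.H26

end
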