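import Fermat.Agent.S55.H26.LocalInvPlan
import Fermat.Agent.S55.H26.LocalInjM1

/-!
# S55 / C4 (helper26): assemblies of (LI3) INJ and (LI2) TRACE from the sub-leaves

Two more small leaves appear here:

* `ShapiroResStatement` (generic): the Shapiro restriction of a level 2-cocycle is a
  level-constant 2-cocycle of `H`;
* `ZetaStatement p q`: `ζ ∈ E` iff the local cyclotomic character is trivial on `Gal(Ω/E)`.
-/

set_option autoImplicit false

open CategoryTheory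

noncomputable section

namespace Fermat.Agent.S55.H26

open Fermat.Agent.S55.H49

/-- **Leaf (SHR)**, generic: the Shapiro restriction of a level 2-cocycle with values in
`k[G ⧸ H]` is a level-constant 2-cocycle of `H` with trivial coefficients.
(The coefficient at the coset `H` is `H`-invariant: `coeff_H (h • v) = coeff_H v`.) -/
def ShapiroResStatement : Prop :=
  ∀ (G : Type) [Group G] (k : Type) [Field k] (D : LevelDatum G) (H : Subgroup G)
    (z : cyc (lcComplex D (permRep k H)) 2),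
    IsLevelFun₂ D H (shapiroRes D H z) ∧
      ∀ h₁ h₂ h₃ : H, shapiroRes D H z (h₂, h₃) - shapiroRes D H z (h₁ * h₂, h₃) +
        shapiroRes D H z (h₁, h₂ * h₃) - shapiroRes D H z (h₁, h₂) = 0

section Concrete

open Fermat.Agent.S55.H66

variable (p : ℕ) [Fact p.Prime] (q : ℕ) [Fact q.Prime]

/-- **Leaf (ZETA)**: a primitive `p`-th root of unity `ζ ∈ Ω` lies in `E` iff the local mod `p`
cyclotomic character is trivial on `Gal(Ω/E)`.
(`σ ζ = ζ ^ χ(σ)` by `padicEmbedding_localGaloisToGlobal` and the definition of `cycloChar`;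
`E = Ω^{Gal(Ω/E)}` by `InfiniteGalois.fixedField_fixingSubgroup`.) -/
def ZetaStatement : Prop :=
  ∀ ζ : PadicAlgCl q, IsPrimitiveRoot ζ p →
    ∀ E : IntermediateField ℚ_[q] (PadicAlgCl q),
      (ζ ∈ E ↔ ∀ s ∈ E.fixingSubgroup, chiLoc p q s = 1)

theorem qzOfZMod_zero : qzOfZMod p 0 = 0 := by
  simp [qzOfZMod]

/-- **(LI3) INJ** from the sub-leaves. -/
theorem localInvInj_of_leaves (hLVL : LocalFieldLevelsStatement q) (hLV : LocalLevelsStatement q)
    (hZ : ZetaStatement p q) (hSHR : ShapiroResStatement) (hSHI : ShapiroInjStatement)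
    (hFL1 : CorrEExistsStatement p q) (hCMP : LocalInvCompStatement p q)
    (hKUM : KummerDescentStatement p q) (hInv : H66.LeafInv q) : LocalInvInjStatement p q := by
  intro ζ hζ inv hinv F hF _hN H hle hχ x hx
  obtain ⟨E, hEfin, rfl⟩ := hLVL.2.2 H F hF hle
  have hζE : ζ ∈ E := (hZ ζ hζ E).2 hχ
  obtain ⟨z, rfl⟩ := cls_surjective (lcComplex (Dloc q) (permRep (ZMod p) E.fixingSubgroup)) 2 x
  obtain ⟨hf1, hf2⟩ := hSHR (GalQ q) (ZMod p) (Dloc q) E.fixingSubgroup z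
  obtain ⟨L', hL'fin, hL'gal, ζ', c, hζ', hreal⟩ := hFL1 ζ hζ E hζE _ hf1 hf2
  have hcorr : CorrE p q E L' ζ'
      ((cls (lcComplex (Dloc q) (permRep (ZMod p) E.fixingSubgroup)) 2).hom z)
      (groupCohomology.H2π (Rep.ofAlgebraAutOnUnits E L') c) := ⟨z, c, rfl, rfl, hreal⟩
  have h1 := hCMP ζ hζ inv hinv E hχ L' ζ' hζ' _ _ hcorr
  rw [hx, qzOfZMod_zero] at h1
  have h3 : groupCohomology.H2π (Rep.ofAlgebraAutOnUnits E L') c = 0 :=
    (hInv E L').2.1 (by rw [← h1, map_zero])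
  obtain ⟨w, hw1, hw2⟩ := hKUM ζ hζ E hζE L' ζ' hζ' _ c hreal h3
  have hfi : (E.fixingSubgroup).FiniteIndex := by
    have := hLV.2 F hF
    exact Subgroup.finiteIndex_of_le hle
  exact hSHI (GalQ q) (ZMod p) (Dloc q) hLV.1 E.fixingSubgroup F hF hle hfi z w hw1 hw2

/-- `1/p ≠ 0` in `ℚ/ℤ`. -/
theorem one_div_ne_zero_QZ : (((1 : ℚ) / (p : ℚ) : ℚ) : QZ) ≠ 0 := by
  have hp : (1 : ℚ) < p := by exact_mod_cast (Fact.out : p.Prime).one_lt
  intro h
  rw [AddCircle.coe_eq_zero_iff] at h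
  obtain ⟨n, hn⟩ := h
  have hpos : (0 : ℚ) < 1 / p := by positivity
  have hlt : (1 : ℚ) / p < 1 := by
    rw [div_lt_one (by positivity)]
    exact hp
  rw [zsmul_eq_mul, mul_one] at hn
  rw [← hn] at hpos hlt
  have h0 : (0 : ℤ) < n := by exact_mod_cast hpos
  have h1 : n < (1 : ℤ) := by exact_mod_cast hlt
  omega

/-- Transport of the conclusion of (TRACE) along an equality of subgroups. -/
theorem trace_transport {G : Type} [Group G] {k : Type} [Field k] (D : LevelDatum G)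
    (χ : G →* kˣ) (inv : Hlc D (mu χ) 2 →ₗ[k] k) (U V : Subgroup G) (h : U = V)
    (hU : ∃ hχ : ∀ s ∈ U, χ s = 1, ∃ z : Hlc D (permRep k U) 2,
      inv (hlcMap D (augChar χ U hχ) 2 z) ≠ 0) :
    ∃ hχ : ∀ s ∈ V, χ s = 1, ∃ z : Hlc D (permRep k V) 2,
      inv (hlcMap D (augChar χ V hχ) 2 z) ≠ 0 := by
  subst h
  exact hU

/-- **(LI2) TRACE** from the sub-leaves. -/
theorem localInvTrace_of_leaves (hLVL : LocalFieldLevelsStatement q)
    (hLV : LocalLevelsStatement q) (hZ : ZetaStatement p q) (hSHS : ShapiroSurjStatement)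
    (hCMP : LocalInvCompStatement p q) (hROOT : RootExtractStatement p q)
    (hInv : H66.LeafInv q) (hInfl : H66.LeafInvInfl q) (hUnram : H66.LeafUnram q) :
    LocalInvTraceStatement p q := by
  intro ζ hζ inv hinv F hF
  -- a level `F₁` on whose subgroup `χ` is trivial
  obtain ⟨F₁, hF₁, -, hF₁le⟩ := hLVL.2.1 (IntermediateField.adjoin ℚ_[q] {ζ})
    (IntermediateField.adjoin.finiteDimensional (hζ.isIntegral (Fact.out : p.Prime).pos).tower_top)
  have hχ₁ : ∀ s ∈ (Dloc q).sub F₁, chiLoc p q s = 1 := fun s hs =>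
    (hZ ζ hζ _).1 (IntermediateField.mem_adjoin_simple_self _ ζ) s (hF₁le hs)
  -- a normal level containing `F` and `F₁`
  obtain ⟨F', hF', hle', hN'⟩ := hLV.1 (F ⊔ F₁) ((Dloc q).sup hF hF₁)
  have hχ' : ∀ s ∈ (Dloc q).sub F', chiLoc p q s = 1 := fun s hs =>
    hχ₁ s ((Dloc q).sub_antitone (le_sup_right.trans hle') hs)
  refine ⟨F', hF', le_sup_left.trans hle', ?_⟩
  -- the field `E` of `F'`
  obtain ⟨E, hEfin, hEU⟩ := hLVL.2.2 ((Dloc q).sub F') F' hF' le_rfl
  refine trace_transport (Dloc q) (chiLoc p q) inv _ _ hEU ?_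
  have hχE : ∀ s ∈ E.fixingSubgroup, chiLoc p q s = 1 := fun s hs => hχ' s (hEU ▸ hs)
  have hζE : ζ ∈ E := (hZ ζ hζ E).2 hχE
  refine ⟨hχE, ?_⟩
  -- the unramified extension of degree `p` of `E` and a class of invariant `1/p`
  obtain ⟨hUfin, hUdeg, hUgal, -, -⟩ := hUnram E p (Fact.out : p.Prime).pos
  obtain ⟨y₁, hy₁⟩ : ∃ y₁, H66.inv q (unramExt q E p) y₁ = (((1 : ℚ) / (p : ℚ) : ℚ) : QZ) := by
    refine ((hInv E (unramExt q E p)).2.2 _).2 ?_
    rw [hUdeg, ← AddCircle.coe_nsmul, nsmul_eq_mul, mul_one_div_cancel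
      (by exact_mod_cast (Fact.out : p.Prime).ne_zero : (p : ℚ) ≠ 0)]
    exact AddCircle.coe_period 1
  have hpy : p • y₁ = 0 := by
    refine (hInv E (unramExt q E p)).2.1 ?_
    rw [map_nsmul, hy₁, map_zero, ← AddCircle.coe_nsmul, nsmul_eq_mul, mul_one_div_cancel
      (by exact_mod_cast (Fact.out : p.Prime).ne_zero : (p : ℚ) ≠ 0)]
    exact AddCircle.coe_period 1
  obtain ⟨L₂, hL₂fin, hL₂gal, hle, ζ₂, f, c, hζ₂, hreal, hclass, hf1, hf2⟩ :=
    hROOT ζ hζ E hζE (unramExt q E p) y₁ hpy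
  have hfi : (E.fixingSubgroup).FiniteIndex := by
    rw [hEU]
    exact hLV.2 F' hF'
  obtain ⟨z, hz⟩ := hSHS (GalQ q) (ZMod p) (Dloc q) hLV.1 E.fixingSubgroup F' hF'
    (le_of_eq hEU.symm) hfi f hf1 hf2
  have hreal' : Realises p q E L₂ ζ₂ (shapiroRes (Dloc q) E.fixingSubgroup z) c := by
    intro h₁ h₂
    rw [hz h₁ h₂]
    exact hreal h₁ h₂
  have hcorr : CorrE p q E L₂ ζ₂
      ((cls (lcComplex (Dloc q) (permRep (ZMod p) E.fixingSubgroup)) 2).hom z)
      (groupCohomology.H2π (Rep.ofAlgebraAutOnUnits E L₂) c) := ⟨z, c, rfl, rfl, hreal'⟩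
  have h1 := hCMP ζ hζ inv hinv E hχE L₂ ζ₂ hζ₂ _ _ hcorr
  rw [hclass, hInfl E (unramExt q E p) L₂ hle y₁, hy₁] at h1
  refine ⟨(cls (lcComplex (Dloc q) (permRep (ZMod p) E.fixingSubgroup)) 2).hom z, fun h0 => ?_⟩
  rw [h0, qzOfZMod_zero] at h1
  exact one_div_ne_zero_QZ p h1.symm

/-- **(L) at `q`** from the sub-leaves (the whole chain of C4's local injectivity). -/
theorem localInj_of_subleaves (hM2 : CoresSurjLeaf) (hLVL : LocalFieldLevelsStatement q)
    (hLV : LocalLevelsStatement q) (hZ : ZetaStatement p q) (hSHR : ShapiroResStatement)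
    (hSHI : ShapiroInjStatement) (hSHS : ShapiroSurjStatement)
    (hFL1 : CorrEExistsStatement p q) (hCMP : LocalInvCompStatement p q)
    (hKUM : KummerDescentStatement p q) (hROOT : RootExtractStatement p q)
    (hInv : H66.LeafInv q) (hInfl : H66.LeafInvInfl q) (hUnram : H66.LeafUnram q)
    (ζ : PadicAlgCl q) (hζ : IsPrimitiveRoot ζ p)
    (inv : Hlc (Dloc q) (mu (chiLoc p q)) 2 →ₗ[ZMod p] ZMod p) (hinv : IsLocalInv p q ζ inv) :
    LocalInjStatement (Dloc q) (chiLoc p q) inv :=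
  localInj_of_leaves p q localInjOfCoresSurj hM2 hLV
    (localInvTrace_of_leaves p q hLVL hLV hZ hSHS hCMP hROOT hInv hInfl hUnram)
    (localInvInj_of_leaves p q hLVL hLV hZ hSHR hSHI hFL1 hCMP hKUM hInv) ζ hζ inv hinv

end Concrete

end Fermat.Agent.S55.H26

end
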