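import Fermat.Agent.S55.H26.LocalInjPrelude
import Fermat.Agent.S55.H43.LocalCrit
import Fermat.Agent.S55.H43.C0Leaves

/-!
# S55 / C4 (helper26): `H43.LocalInjP` from (L) on the Prelude's `continuousH2`

`H43.rPackage_localCriterion` (helper43) reduces the leaf `LocalCriterion` of Route R to formula
(C) (C2) and to `H43.LocalInjP S inv`: for `M` admissible and `q ∈ S`, a class
`y ∈ H²(G_q, M)` with `inv_q (m_* y) = 0` for all `m ∈ H⁰(G_q, M')` is zero.

Here `H43.LocalInjP S inv` is deduced from `LocalInjPreludeStatement` at every `q ∈ S`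
(`LocalInjPrelude.lean`): a morphism `φ : M|G_q ⟶ 𝔽_p(χ)` is the same thing as a vector of the
Tate dual fixed by `G_q`, and the restriction of an admissible module to `G_q` is smooth.
-/

set_option autoImplicit false

open CategoryTheory groupCohomology ExtCitation

noncomputable section

namespace Fermat.Agent.S55.H26

section Fixed

variable {k : Type} [Field k] {G H : Type} [Group G] [Group H]

/-- A morphism `A|H ⟶ k(χ ∘ r)` is a vector of the Tate dual fixed by the image of `r`. -/
theorem fixed_of_hom (r : H →* G) (A : Rep.{0} k G) (χ : G →* kˣ)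
    (φ : Rep.res r A ⟶ mu (χ.comp r)) (h : H) :
    (A.dualTwist χ).ρ (r h) (φ.hom.toLinearMap : A →ₗ[k] k) = (φ.hom.toLinearMap : A →ₗ[k] k) := by
  rw [Rep.dualTwist_ρ_apply]
  refine LinearMap.ext fun a => ?_
  simp only [LinearMap.smul_apply, LinearMap.coe_comp, Function.comp_apply]
  have h1 : φ.hom ((Rep.res r A).ρ h (A.ρ (r h)⁻¹ a)) =
      (mu (χ.comp r)).ρ h (φ.hom (A.ρ (r h)⁻¹ a)) := Rep.hom_comm_apply φ h _
  have h2 : (Rep.res r A).ρ h (A.ρ (r h)⁻¹ a) = a := by
    show A.ρ (r h) (A.ρ (r h)⁻¹ a) = a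
    rw [← Module.End.mul_apply, ← map_mul, mul_inv_cancel, map_one, Module.End.one_apply]
  rw [h2, mu_ρ_apply] at h1
  exact h1.symm

end Fixed

section Criterion

variable (p : ℕ) [Fact p.Prime] (S : Finset Nat.Primes)

/-- The local mod `p` cyclotomic character at a prime of `S`. -/
abbrev chiAt (q : ↥S) : primeLocalGaloisGroup q.1 →* (ZMod p)ˣ :=
  (cycloChar p).comp (primeLocalToGlobal q.1)

/-- The restriction of `μ_p` to the local group at `q` is `𝔽_p(χ_q)`. -/
theorem res_muRep (q : ↥S) :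
    Rep.res (primeLocalToGlobal q.1) (H43.muRep p) = mu (chiAt p S q) := rfl

/-- **`H43.LocalInjP`** from (L) on the Prelude's local `H²` at every `q ∈ S`. -/
theorem localInjP_of_prelude
    (inv : ∀ q : ↥S, continuousH2 (primeLocalToGlobal q.1)
      (Rep.res (primeLocalToGlobal q.1) (H43.muRep p)) →ₗ[ZMod p] ZMod p)
    (hL : ∀ q : ↥S, LocalInjPreludeStatement (primeLocalToGlobal q.1) (chiAt p S q) (inv q)) :
    H43.LocalInjP S inv := by
  intro M hM q y hy
  have : FiniteDimensional (ZMod p) M := hM.1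
  have hsm : (H49.localDatum (primeLocalToGlobal q.1)).Smooth
      (Rep.res (primeLocalToGlobal q.1) M) :=
    H49.smooth_res (H49.primeHom S q) (H43.smoothOfHyp p S M hM.2.1 hM.2.2)
  refine hL q (Rep.res (primeLocalToGlobal q.1) M) hsm hM.1 y fun φ => ?_
  exact hy ⟨(φ.hom.toLinearMap : M →ₗ[ZMod p] ZMod p),
    fun g => fixed_of_hom (primeLocalToGlobal q.1) M (cycloChar p) φ g⟩

end Criterion

end Fermat.Agent.S55.H26

end
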