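import Fermat.Agent.S55.H26.StartLocal
import Fermat.Agent.S55.H49.C0Spec
import Fermat.Agent.S55.H66.InvSpec

/-!
# S55 / C4 (helper26), Route R: local injectivity (L) and the local invariant — statements

Route R consumes from C4, at every finite place `q ∈ S`:

* the local invariant `inv_q : H²(G_q, 𝔽_p(χ)) → 𝔽_p` on level-constant cohomology, pinned down by
  C3's finite-level invariants (`IsLocalInv`);
* **(L)** `LocalInjStatement`: a class `x ∈ H²(G_q, K)` with `inv_q (f_* x) = 0` for all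
  `f : K ⟶ 𝔽_p(χ)` is zero.

(L) is reduced, formally, to two statements about the permutation modules `𝔽_p[G_q ⧸ H]`
(`H` open, `χ` trivial on `H`; `E` the fixed field of `H`): with
`ι_H := inv_q ∘ aug_* : H²(G_q, 𝔽_p[G_q ⧸ H]) → 𝔽_p` (in Shapiro's language: `inv_E` on
`H²(G_E, μ_p)`),

* `TraceStatement` (on main, `StartLocal.lean`): `ι_H ≠ 0` for cofinally many levels;
* `InjStatement`: `ι_H` is injective.

No `H³`, no cohomological dimension, no `H¹ × H¹` duality.
-/

set_option autoImplicit false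

open CategoryTheory

noncomputable section

namespace Fermat.Agent.S55.H26

open Fermat.Agent.S55.H49

/-! ### The abstract statements -/

section Abstract

variable {G : Type} [Group G] {k : Type} [Field k]

/-- **Leaf (INJ).**  For every subgroup `H` containing the subgroup of a normal level and on
which `χ` is trivial, `inv ∘ aug_* : H²(G, k[G ⧸ H]) → k` is injective.
(Local case: `inv_E` is injective on `H²(G_E, μ_p)`, `E` the fixed field of `H`.) -/
def InjStatement (D : LevelDatum G) (χ : G →* kˣ) (inv : Hlc D (mu χ) 2 →ₗ[k] k) : Prop :=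
  ∀ F : IntermediateField ℚ (AlgebraicClosure ℚ), D.Lev F → (F.fixingSubgroup).Normal →
    ∀ H : Subgroup G, D.sub F ≤ H → ∀ hχ : ∀ s ∈ H, χ s = 1,
      ∀ z : Hlc D (permRep k H) 2, inv (hlcMap D (augChar χ H hχ) 2 z) = 0 → z = 0

/-- **Export (L)**: local injectivity `H²(G, K) ↪ Hom_G(K, k(χ))^∨`. -/
def LocalInjStatement (D : LevelDatum G) (χ : G →* kˣ) (inv : Hlc D (mu χ) 2 →ₗ[k] k) : Prop :=
  ∀ K : Rep.{0} k G, D.Smooth K → Module.Finite k K → ∀ x : Hlc D K 2,
    (∀ f : K ⟶ mu χ, inv (hlcMap D f 2 x) = 0) → x = 0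

/-- **Intermediate (CORES-SURJ)**: every class of `H²(G, K)` is a sum of classes pushed forward
from `H²(G, k[G ⧸ U])` along orbit maps, `U` the subgroup of a normal level acting trivially on
`K` and `χ`.  (Shapiro: `cores : H²(U, K) → H²(G, K)` is surjective.) -/
def CoresSurjStatement (D : LevelDatum G) (χ : G →* kˣ) : Prop :=
  ∀ K : Rep.{0} k G, D.Smooth K → Module.Finite k K → ∀ x : Hlc D K 2,
    ∃ F : IntermediateField ℚ (AlgebraicClosure ℚ), D.Lev F ∧ (F.fixingSubgroup).Normal ∧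
      (∀ s ∈ D.sub F, χ s = 1) ∧ ∃ hK : ∀ m : K, ∀ s ∈ D.sub F, K.ρ s m = m,
        x ∈ Submodule.span k (Set.range fun mz : K × Hlc D (permRep k (D.sub F)) 2 =>
          hlcMap D (orbitMap K (D.sub F) mz.1 (hK mz.1)) 2 mz.2)

end Abstract

/-- **Leaf (M1)**, abstract, Mathlib + C0 only: (TRACE) + (INJ) + (CORES-SURJ) ⟹ (L).
Proof: by (TRACE)+(INJ) `H²(k[G ⧸ U])` is a line spanned by `z₀` with `ι_U z₀ = 1`; so
`x = Θ m := (orbitMap m)_* z₀` for one `m ∈ K`; `inv (f_* Θ m) = f m`; the hypothesis says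
`m ∈ span {g m' - χ(g) m'}`, and `Θ (g m') = χ(g) Θ m'` because right translation `R_g` on
`k[G ⧸ U]` satisfies `aug ∘ R_g = χ(g) aug`, hence `(R_g)_* z₀ = χ(g) z₀` by (INJ). -/
def LocalInjOfCoresSurjLeaf : Prop :=
  ∀ (G : Type) [Group G] (k : Type) [Field k] (D : LevelDatum G) (χ : G →* kˣ)
    (inv : Hlc D (mu χ) 2 →ₗ[k] k),
    TraceStatement D χ inv → InjStatement D χ inv → CoresSurjStatement D χ →
      LocalInjStatement D χ inv

/-- **Leaf (M2)**, abstract, Mathlib + C0 only: (TRACE) + (INJ) ⟹ (CORES-SURJ) for a finite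
field `k` of characteristic `p` and a level datum with normal, finite-index levels.
Proof: `U` normal level trivial on `K`, `χ`; `H ⊇ U` the preimage of a `p`-Sylow of `G ⧸ U`.
(B) `k[G ⧸ H]` is generated: `ι_H` injective, `ι_U` surjective, `ι_H ∘ π_* = ι_U`.
(E) generation is stable under extensions (middle exactness of `H²`, `H49.lc_shortExact`).
(F) `Fun_N = {φ : G ⧸ H → K | φ (gH) ∈ g N}` for `H`-stable `N ≤ K`: induction on `dim N` along an
`H`-invariant functional (`H ⧸ U` is a `p`-group), quotients `≅ k[G ⧸ H]`.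
(S) `K` is a direct summand of `Fun_K` (`[G : H]` is invertible in `k`). -/
def CoresSurjLeaf : Prop :=
  ∀ (G : Type) [Group G] (k : Type) [Field k] [Finite k] (p : ℕ) [Fact p.Prime] [CharP k p]
    (D : LevelDatum G), D.HasNormalLevels →
    (∀ F : IntermediateField ℚ (AlgebraicClosure ℚ), D.Lev F → (D.sub F).FiniteIndex) →
    ∀ (χ : G →* kˣ) (inv : Hlc D (mu χ) 2 →ₗ[k] k),
      TraceStatement D χ inv → InjStatement D χ inv → CoresSurjStatement D χ

/-- Assembly of the abstract machine. -/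
theorem localInj_of_trace_inj (h1 : LocalInjOfCoresSurjLeaf) (h2 : CoresSurjLeaf)
    {G : Type} [Group G] {k : Type} [Field k] [Finite k] (p : ℕ) [Fact p.Prime] [CharP k p]
    (D : LevelDatum G) (hN : D.HasNormalLevels)
    (hfin : ∀ F : IntermediateField ℚ (AlgebraicClosure ℚ), D.Lev F → (D.sub F).FiniteIndex)
    (χ : G →* kˣ) (inv : Hlc D (mu χ) 2 →ₗ[k] k)
    (hT : TraceStatement D χ inv) (hI : InjStatement D χ inv) : LocalInjStatement D χ inv :=
  h1 G k D χ inv hT hI (h2 G k p D hN hfin χ inv hT hI)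

/-! ### The local invariant at a prime `q` -/

section Concrete

open Fermat.Agent.S55.H66

variable (p : ℕ) [Fact p.Prime] (q : ℕ) [Fact q.Prime]

/-- The local Galois group `Gal(Ω/ℚ_q)`, `Ω = PadicAlgCl q`
(`= ExtCitation.primeLocalGaloisGroup q`). -/
abbrev GalQ : Type := PadicAlgCl q ≃ₐ[ℚ_[q]] PadicAlgCl q

/-- The local level datum (`= H49.primeDatum S q`). -/
def Dloc : LevelDatum (GalQ q) := localDatum (localGaloisToGlobal q)

/-- The local mod `p` cyclotomic character. -/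
def chiLoc : GalQ q →* (ZMod p)ˣ := (ExtCitation.cycloChar p).comp (localGaloisToGlobal q)

variable {q} in
/-- `ζ ^ a` as an element of the Galois module `Lˣ`. -/
def zetaPow {F : Type} [Field F] [Algebra F (PadicAlgCl q)]
    {L : IntermediateField F (PadicAlgCl q)} (ζ : Lˣ) (a : ZMod p) :
    Rep.ofAlgebraAutOnUnits F L :=
  Rep.toAdditive.symm (Additive.ofMul (ζ ^ a.val))

/-- `a ↦ a / p`, `𝔽_p → ℚ/ℤ`. -/
def qzOfZMod (a : ZMod p) : QZ := (((a.val : ℚ) / (p : ℚ) : ℚ) : QZ)

/-- A class `x ∈ H²(G_q, 𝔽_p(χ))` (level-constant cohomology) and a class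
`y ∈ H²(Gal(L/ℚ_q), Lˣ)` CORRESPOND if they have cocycle representatives `z`, `c` with
`c (σ|L, τ|L) = ζ ^ z (σ, τ)` for all `σ, τ ∈ G_q`. -/
def Corr (L : IntermediateField ℚ_[q] (PadicAlgCl q)) [Normal ℚ_[q] L] (ζ : Lˣ)
    (x : Hlc (Dloc q) (mu (chiLoc p q)) 2)
    (y : groupCohomology.H2 (Rep.ofAlgebraAutOnUnits ℚ_[q] L)) : Prop :=
  ∃ (z : cyc (lcComplex (Dloc q) (mu (chiLoc p q))) 2)
    (c : groupCohomology.cocycles₂ (Rep.ofAlgebraAutOnUnits ℚ_[q] L)),
    (cls (lcComplex (Dloc q) (mu (chiLoc p q))) 2).hom z = x ∧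
    groupCohomology.H2π (Rep.ofAlgebraAutOnUnits ℚ_[q] L) c = y ∧
    ∀ g : Fin 2 → GalQ q,
      c.1 (AlgEquiv.restrictNormalHom L (g 0), AlgEquiv.restrictNormalHom L (g 1)) =
        zetaPow p ζ (lcVal z g)

/-- **THE LOCAL INVARIANT** on `H²(G_q, 𝔽_p(χ))`, relative to a primitive `p`-th root of unity
`ζ ∈ Ω`: `inv x = a` iff `inv_{L/ℚ_q} y = a/p` for every finite-level correspondent `y` of `x`. -/
def IsLocalInv (ζ : PadicAlgCl q)
    (inv : Hlc (Dloc q) (mu (chiLoc p q)) 2 →ₗ[ZMod p] ZMod p) : Prop :=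
  ∀ (L : IntermediateField ℚ_[q] (PadicAlgCl q)) [FiniteDimensional ℚ_[q] L]
    [IsGalois ℚ_[q] L] (ζL : Lˣ), ((ζL : L) : PadicAlgCl q) = ζ →
    ∀ (x : Hlc (Dloc q) (mu (chiLoc p q)) 2)
      (y : groupCohomology.H2 (Rep.ofAlgebraAutOnUnits ℚ_[q] L)),
      Corr p q L ζL x y → qzOfZMod p (inv x) = H66.inv q L y

/-- **Leaf (LI1)**: existence of the local invariant.
Proof: every level cocycle is constant modulo `Gal(Ω/L)` for some finite Galois `L ∋ ζ`
(Krasner: the fields `ℚ_q(ι F)`, `F` a number field, are cofinal), which gives a correspondent;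
two correspondents (at `L`, `L'`, for cohomologous `z`, `z'`) become equal after inflation to a
common `L''` where the level 1-cochain `w` with `z - z' = dw` is defined; `LeafInvInfl`. The value
lies in `(1/p)ℤ/ℤ` since `p • y = 0`. Linearity: sums of correspondents correspond. -/
def LocalInvExistsStatement : Prop :=
  ∀ ζ : PadicAlgCl q, IsPrimitiveRoot ζ p →
    ∃ inv : Hlc (Dloc q) (mu (chiLoc p q)) 2 →ₗ[ZMod p] ZMod p, IsLocalInv p q ζ inv

/-- **Leaf (LI2)**: (TRACE) for the local invariant. -/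
def LocalInvTraceStatement : Prop :=
  ∀ ζ : PadicAlgCl q, IsPrimitiveRoot ζ p →
    ∀ inv : Hlc (Dloc q) (mu (chiLoc p q)) 2 →ₗ[ZMod p] ZMod p, IsLocalInv p q ζ inv →
      TraceStatement (Dloc q) (chiLoc p q) inv

/-- **Leaf (LI3)**: (INJ) for the local invariant. -/
def LocalInvInjStatement : Prop :=
  ∀ ζ : PadicAlgCl q, IsPrimitiveRoot ζ p →
    ∀ inv : Hlc (Dloc q) (mu (chiLoc p q)) 2 →ₗ[ZMod p] ZMod p, IsLocalInv p q ζ inv →
      InjStatement (Dloc q) (chiLoc p q) inv

/-- **Leaf (LV)**: the local level datum has normal levels of finite index. -/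
def LocalLevelsStatement : Prop :=
  (Dloc q).HasNormalLevels ∧
    ∀ F : IntermediateField ℚ (AlgebraicClosure ℚ), (Dloc q).Lev F →
      ((Dloc q).sub F).FiniteIndex

/-- **(L) at `q`** from the leaves. -/
theorem localInj_of_leaves (h1 : LocalInjOfCoresSurjLeaf) (h2 : CoresSurjLeaf)
    (hV : LocalLevelsStatement q) (hT : LocalInvTraceStatement p q)
    (hI : LocalInvInjStatement p q) (ζ : PadicAlgCl q) (hζ : IsPrimitiveRoot ζ p)
    (inv : Hlc (Dloc q) (mu (chiLoc p q)) 2 →ₗ[ZMod p] ZMod p) (hinv : IsLocalInv p q ζ inv) :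
    LocalInjStatement (Dloc q) (chiLoc p q) inv :=
  localInj_of_trace_inj h1 h2 p (Dloc q) hV.1 hV.2 (chiLoc p q) inv (hT ζ hζ inv hinv)
    (hI ζ hζ inv hinv)

end Concrete

end Fermat.Agent.S55.H26

end
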