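import Fermat.Agent.S55.H26.LocalInvSpec

/-!
# S55 / C4 (helper26): sub-leaves of (LI2) TRACE and (LI3) INJ for the local invariant

Notation: `G = GalQ q`, `E` a finite extension of `ℚ_q` inside `Ω = PadicAlgCl q`,
`H = E.fixingSubgroup = Gal(Ω/E)`, `k = ZMod p`, `ζ ∈ E` a primitive `p`-th root of unity.
For a level 2-cocycle `z : G² → k[G ⧸ H]` its SHAPIRO RESTRICTION is
`z_E (h₁, h₂) := coefficient of z (h₁, h₂) at the coset H` (`h₁, h₂ ∈ H`), a level-constant
2-cocycle of `H` with trivial coefficients.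

* `ShapiroInjStatement`, `ShapiroSurjStatement` (generic, Mathlib + C0): `z ↦ z_E` is injective
  and surjective on cohomology in degree 2.
* `LocalFieldLevelsStatement`: the dictionary levels ↔ finite extensions of `ℚ_q` (Krasner).
* `CorrE`, `LocalInvCompStatement`: `inv_{ℚ_q} ∘ aug_* = inv_E ∘ (Shapiro restriction)`
  (`inv ∘ cores = inv`), through C3's `inv q L'` for `L'/E`.
* `KummerDescentStatement`, `RootExtractStatement`: `H²(G_E, μ_p) → Br(E)` is injective with
  image the `p`-torsion (Hilbert 90 and extraction of `p`-th roots, in the colimit).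
* `CorrEExistsStatement`: every level 2-cocycle of `H` is realised at a finite level.
-/

set_option autoImplicit false

open CategoryTheory

noncomputable section

namespace Fermat.Agent.S55.H26

open Fermat.Agent.S55.H49

/-! ### Generic: explicit Shapiro in degree 2 for `k[G ⧸ H]` -/

section Generic

variable {G : Type} [Group G] {k : Type} [Field k]

/-- The coefficient of an element of `k[G ⧸ H]` at a coset. -/
def permCoeff (H : Subgroup G) (v : permRep k H) (x : G ⧸ H) : k :=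
  MonoidAlgebra.coeffLinearEquiv k v x

/-- A function on a subgroup `H` is level-constant: right-invariant under `H ∩ D.sub F'` for
some level `F'`. -/
def IsLevelFun₁ (D : LevelDatum G) (H : Subgroup G) {X : Type} (w : H → X) : Prop :=
  ∃ F' : IntermediateField ℚ (AlgebraicClosure ℚ), D.Lev F' ∧
    ∀ h n : H, (n : G) ∈ D.sub F' → w (h * n) = w h

/-- A function of two variables on a subgroup `H` is level-constant. -/
def IsLevelFun₂ (D : LevelDatum G) (H : Subgroup G) {X : Type} (f : H × H → X) : Prop :=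
  ∃ F' : IntermediateField ℚ (AlgebraicClosure ℚ), D.Lev F' ∧
    ∀ h₁ h₂ n₁ n₂ : H, (n₁ : G) ∈ D.sub F' → (n₂ : G) ∈ D.sub F' →
      f (h₁ * n₁, h₂ * n₂) = f (h₁, h₂)

/-- The Shapiro restriction of a level 2-cocycle with values in `k[G ⧸ H]`. -/
def shapiroRes (D : LevelDatum G) (H : Subgroup G) (z : cyc (lcComplex D (permRep k H)) 2) :
    H × H → k :=
  fun h => permCoeff H (lcVal z ![(h.1 : G), (h.2 : G)]) ((1 : G) : G ⧸ H)

end Generic

/-- **Leaf (SHI)**, generic (Mathlib + C0): Shapiro injectivity in degree 2.  If the Shapiro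
restriction of `z` is the coboundary of a level-constant function `w` on `H`, then `[z] = 0`.
Proof: dictionary `z ↔ F(y₀,y₁,y₂) := coeff of z (y₀⁻¹y₁, y₁⁻¹y₂) at y₀⁻¹H` (left `H`-invariant,
`z (g₁,g₂)(xH) = F (x⁻¹, x⁻¹g₁, x⁻¹g₁g₂)`), a retraction `t : G → H`, `t (h g) = h t g`,
`t|H = id`, and the prism identity `F = F∘t³ + hd1 (prism2 t F)` for homogeneous cocycles. -/
def ShapiroInjStatement : Prop :=
  ∀ (G : Type) [Group G] (k : Type) [Field k] (D : LevelDatum G), D.HasNormalLevels →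
    ∀ (H : Subgroup G) (F : IntermediateField ℚ (AlgebraicClosure ℚ)), D.Lev F → D.sub F ≤ H →
    H.FiniteIndex →
    ∀ (z : cyc (lcComplex D (permRep k H)) 2) (w : H → k), IsLevelFun₁ D H w →
      (∀ h₁ h₂ : H, shapiroRes D H z (h₁, h₂) = w h₂ - w (h₁ * h₂) + w h₁) →
      (cls (lcComplex D (permRep k H)) 2).hom z = 0

/-- **Leaf (SHS)**, generic (Mathlib + C0): Shapiro surjectivity in degree 2.  Every
level-constant 2-cocycle of `H` (trivial coefficients) is the Shapiro restriction of a level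
2-cocycle of `G` with values in `k[G ⧸ H]`. -/
def ShapiroSurjStatement : Prop :=
  ∀ (G : Type) [Group G] (k : Type) [Field k] (D : LevelDatum G), D.HasNormalLevels →
    ∀ (H : Subgroup G) (F : IntermediateField ℚ (AlgebraicClosure ℚ)), D.Lev F → D.sub F ≤ H →
    H.FiniteIndex →
    ∀ f : H × H → k, IsLevelFun₂ D H f →
      (∀ h₁ h₂ h₃ : H, f (h₂, h₃) - f (h₁ * h₂, h₃) + f (h₁, h₂ * h₃) - f (h₁, h₂) = 0) →
      ∃ z : cyc (lcComplex D (permRep k H)) 2, ∀ h₁ h₂ : H, shapiroRes D H z (h₁, h₂) = f (h₁, h₂)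

/-! ### The local dictionary -/

section Concrete

open Fermat.Agent.S55.H66

variable (p : ℕ) [Fact p.Prime] (q : ℕ) [Fact q.Prime]

/-- **Leaf (LVL)**: levels of the local datum versus finite extensions of `ℚ_q` in `Ω`.
(a) `L := ℚ_q(ι F')`, `F'` the normal closure of `F`; (b) Krasner's lemma + density of `ℚ` in
`ℚ_q` (every finite `L` lies in `ℚ_q(ι F)`); (c) finite Galois theory. -/
def LocalFieldLevelsStatement : Prop :=
  (∀ F : IntermediateField ℚ (AlgebraicClosure ℚ), (Dloc q).Lev F →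
    ∃ L : IntermediateField ℚ_[q] (PadicAlgCl q), FiniteDimensional ℚ_[q] L ∧
      IsGalois ℚ_[q] L ∧ L.fixingSubgroup ≤ (Dloc q).sub F) ∧
  (∀ L : IntermediateField ℚ_[q] (PadicAlgCl q), FiniteDimensional ℚ_[q] L →
    ∃ F : IntermediateField ℚ (AlgebraicClosure ℚ), (Dloc q).Lev F ∧
      (F.fixingSubgroup).Normal ∧ (Dloc q).sub F ≤ L.fixingSubgroup) ∧
  (∀ (H : Subgroup (GalQ q)) (F : IntermediateField ℚ (AlgebraicClosure ℚ)), (Dloc q).Lev F →
    (Dloc q).sub F ≤ H →
    ∃ E : IntermediateField ℚ_[q] (PadicAlgCl q), FiniteDimensional ℚ_[q] E ∧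
      E.fixingSubgroup = H)

variable {q} in
/-- Restriction `Gal(Ω/E) → Gal(L'/E)`. -/
def resE (E : IntermediateField ℚ_[q] (PadicAlgCl q))
    (L' : IntermediateField E (PadicAlgCl q)) [Normal E L'] :
    E.fixingSubgroup →* (L' ≃ₐ[E] L') :=
  (AlgEquiv.restrictNormalHom L').comp (IntermediateField.fixingSubgroupEquiv E).toMonoidHom

/-- A function `f : H × H → 𝔽_p` is REALISED at the finite level `L'/E` by the unit-valued
2-cocycle `c` if `c (σ|L', τ|L') = ζ ^ f (σ, τ)`. -/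
def Realises (E : IntermediateField ℚ_[q] (PadicAlgCl q))
    (L' : IntermediateField E (PadicAlgCl q)) [Normal E L'] (ζ : L'ˣ)
    (f : E.fixingSubgroup × E.fixingSubgroup → ZMod p)
    (c : groupCohomology.cocycles₂ (Rep.ofAlgebraAutOnUnits E L')) : Prop :=
  ∀ h₁ h₂ : E.fixingSubgroup, c.1 (resE E L' h₁, resE E L' h₂) = zetaPow p ζ (f (h₁, h₂))

/-- A class `x ∈ H²(G_q, 𝔽_p[G_q ⧸ H])` and a class `y ∈ H²(Gal(L'/E), L'ˣ)` CORRESPOND if they
have representatives `z`, `c` such that `c` realises the Shapiro restriction of `z`. -/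
def CorrE (E : IntermediateField ℚ_[q] (PadicAlgCl q))
    (L' : IntermediateField E (PadicAlgCl q)) [Normal E L'] (ζ : L'ˣ)
    (x : Hlc (Dloc q) (permRep (ZMod p) E.fixingSubgroup) 2)
    (y : groupCohomology.H2 (Rep.ofAlgebraAutOnUnits E L')) : Prop :=
  ∃ (z : cyc (lcComplex (Dloc q) (permRep (ZMod p) E.fixingSubgroup)) 2)
    (c : groupCohomology.cocycles₂ (Rep.ofAlgebraAutOnUnits E L')),
    (cls (lcComplex (Dloc q) (permRep (ZMod p) E.fixingSubgroup)) 2).hom z = x ∧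
    groupCohomology.H2π (Rep.ofAlgebraAutOnUnits E L') c = y ∧
    Realises p q E L' ζ (shapiroRes (Dloc q) E.fixingSubgroup z) c

/-- **Leaf (CMP)**: `inv_{ℚ_q} ∘ aug_* = inv_E ∘ (Shapiro restriction)`.
Proof (`Γ = Gal(L/ℚ_q) ⊇ Δ = Gal(L/E)`, `L ⊇ L'` Galois over `ℚ_q`, `z` constant mod `Gal(Ω/L)`):
choose `u ∈ H²(Γ, Lˣ)` with `res u = infl y` (`LeafInv`, `LeafInvRes`); the `Δ`-equivariant
homogeneous cocycle `ζ^F_z - ũ` restricts to a coboundary on `Δ³`, hence is `hd1 B` with `B`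
`Δ`-equivariant (prism); apply the norm `Σ_{x ∈ Γ/Δ} x · (-)(x⁻¹ ·)`:
`[ζ^(aug z)] = [Γ:Δ] u`; `LeafInvRes` again, and `IsLocalInv` for the correspondents
`(aug ∘ z, ζ^(aug z))`. -/
def LocalInvCompStatement : Prop :=
  ∀ ζ : PadicAlgCl q, IsPrimitiveRoot ζ p →
    ∀ inv : Hlc (Dloc q) (mu (chiLoc p q)) 2 →ₗ[ZMod p] ZMod p, IsLocalInv p q ζ inv →
    ∀ (E : IntermediateField ℚ_[q] (PadicAlgCl q)) [FiniteDimensional ℚ_[q] E]
      (hχ : ∀ s ∈ E.fixingSubgroup, chiLoc p q s = 1)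
      (L' : IntermediateField E (PadicAlgCl q)) [FiniteDimensional E L'] [IsGalois E L']
      (ζ' : L'ˣ), ((ζ' : L') : PadicAlgCl q) = ζ →
      ∀ (x : Hlc (Dloc q) (permRep (ZMod p) E.fixingSubgroup) 2)
        (y : groupCohomology.H2 (Rep.ofAlgebraAutOnUnits E L')),
        CorrE p q E L' ζ' x y →
          qzOfZMod p (inv (hlcMap (Dloc q) (augChar (chiLoc p q) E.fixingSubgroup hχ) 2 x)) =
            H66.inv q L' y

/-- **Leaf (FL1)**: every level-constant 2-cocycle of `H = Gal(Ω/E)` with trivial coefficients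
`𝔽_p` is realised at some finite Galois level `L'/E`. -/
def CorrEExistsStatement : Prop :=
  ∀ ζ : PadicAlgCl q, IsPrimitiveRoot ζ p →
    ∀ (E : IntermediateField ℚ_[q] (PadicAlgCl q)) [FiniteDimensional ℚ_[q] E], ζ ∈ E →
    ∀ f : E.fixingSubgroup × E.fixingSubgroup → ZMod p,
      IsLevelFun₂ (Dloc q) E.fixingSubgroup f →
      (∀ h₁ h₂ h₃ : E.fixingSubgroup,
        f (h₂, h₃) - f (h₁ * h₂, h₃) + f (h₁, h₂ * h₃) - f (h₁, h₂) = 0) →
      ∃ (L' : IntermediateField E (PadicAlgCl q)) (_ : FiniteDimensional E L')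
        (_ : IsGalois E L') (ζ' : L'ˣ)
        (c : groupCohomology.cocycles₂ (Rep.ofAlgebraAutOnUnits E L')),
        ((ζ' : L') : PadicAlgCl q) = ζ ∧ Realises p q E L' ζ' f c

/-- **Leaf (KUM)**: Kummer descent (injectivity of `H²(G_E, μ_p) → Br(E)`).  If the unit
cocycle realising `f` is a coboundary, then `f = dw` with `w` level-constant on `H`.
Proof: `c = db`; `b^p` is a 1-cocycle, `= d(a)` by Hilbert 90; over `L'' = L'(a^{1/p})` (Galois
over `E`) the cochain `b · α/σ(α)` is `μ_p`-valued, `= ζ^w`; level-constancy by (LVL)(b). -/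
def KummerDescentStatement : Prop :=
  ∀ ζ : PadicAlgCl q, IsPrimitiveRoot ζ p →
    ∀ (E : IntermediateField ℚ_[q] (PadicAlgCl q)) [FiniteDimensional ℚ_[q] E], ζ ∈ E →
    ∀ (L' : IntermediateField E (PadicAlgCl q)) [FiniteDimensional E L'] [IsGalois E L']
      (ζ' : L'ˣ), ((ζ' : L') : PadicAlgCl q) = ζ →
    ∀ (f : E.fixingSubgroup × E.fixingSubgroup → ZMod p)
      (c : groupCohomology.cocycles₂ (Rep.ofAlgebraAutOnUnits E L')),
      Realises p q E L' ζ' f c → groupCohomology.H2π (Rep.ofAlgebraAutOnUnits E L') c = 0 →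
      ∃ w : E.fixingSubgroup → ZMod p, IsLevelFun₁ (Dloc q) E.fixingSubgroup w ∧
        ∀ h₁ h₂ : E.fixingSubgroup, f (h₁, h₂) = w h₂ - w (h₁ * h₂) + w h₁

/-- **Leaf (ROOT)**: extraction of roots (`H²(G_E, μ_p) ↠ Br(E)[p]`).  A class `y` of
`H²(Gal(L₁/E), L₁ˣ)` killed by `p` becomes, after inflation to a larger finite Galois `L₂/E`,
the class of a `μ_p`-valued cocycle `ζ^f`, `f` a level-constant 2-cocycle of `H`. -/
def RootExtractStatement : Prop :=
  ∀ ζ : PadicAlgCl q, IsPrimitiveRoot ζ p →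
    ∀ (E : IntermediateField ℚ_[q] (PadicAlgCl q)) [FiniteDimensional ℚ_[q] E], ζ ∈ E →
    ∀ (L₁ : IntermediateField E (PadicAlgCl q)) [FiniteDimensional E L₁] [IsGalois E L₁]
      (y : groupCohomology.H2 (Rep.ofAlgebraAutOnUnits E L₁)), p • y = 0 →
      ∃ (L₂ : IntermediateField E (PadicAlgCl q)) (_ : FiniteDimensional E L₂)
        (_ : IsGalois E L₂) (hle : L₁ ≤ L₂) (ζ₂ : L₂ˣ)
        (f : E.fixingSubgroup × E.fixingSubgroup → ZMod p)
        (c : groupCohomology.cocycles₂ (Rep.ofAlgebraAutOnUnits E L₂)),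
        ((ζ₂ : L₂) : PadicAlgCl q) = ζ ∧ Realises p q E L₂ ζ₂ f c ∧
        groupCohomology.H2π (Rep.ofAlgebraAutOnUnits E L₂) c = (H66.inflH2 hle).hom y ∧
        IsLevelFun₂ (Dloc q) E.fixingSubgroup f ∧
        ∀ h₁ h₂ h₃ : E.fixingSubgroup,
          f (h₂, h₃) - f (h₁ * h₂, h₃) + f (h₁, h₂ * h₃) - f (h₁, h₂) = 0

end Concrete

end Fermat.Agent.S55.H26

end
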