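import Fermat.Agent.S55.H26.LocalInvAssembly
import Fermat.Agent.S55.H26.LocalInjP
import Fermat.Agent.S55.H80.CoresSurjLeaf
import Fermat.Agent.S55.H63.LocalLevels
import Fermat.Agent.S55.H40.LocalLevels
import Fermat.Agent.S55.H51.Zeta
import Fermat.Agent.S55.H17.ShapiroRes
import Fermat.Agent.S55.H55.ShapiroLevel
import Fermat.Agent.S55.H72.CorrEExists
import Fermat.Agent.S55.H65.KummerDescent
import Fermat.Agent.S55.H66.C3Main
import Fermat.Agent.S55.H99.Bridge2

/-!
# S55 / C4 (helper26): the top of the local package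

All landed leaves of C4 are discharged here.  What remains as hypotheses:

* `LocalInvCompStatement p q` (CMP), `RootExtractStatement p q` (ROOT) — for (L), (TRACE), (INJ);
* `LocalInvExistsStatement p q` (LI1) — for the existence of the invariant.

Exports:

* `localInj_of_cmp_root`, `localTrace_of_cmp_root`, `localInvInj_of_cmp`: (L), (TRACE), (INJ) on
  the level-constant cohomology of `Gal(Ω/ℚ_q)` for every invariant with `IsLocalInv`;
* `IsPreludeLocalInv p q ζ invP`: `invP` is the local invariant on the Prelude's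
  `continuousH2 (localGaloisToGlobal q) 𝔽_p(χ)` (characterised on level cocycles through an
  invariant with `IsLocalInv`); existence (`exists_isPreludeLocalInv`) and (L) in the Prelude form
  (`localInjPrelude_of_isPreludeLocalInv`);
* `IsLocalInvFamily p S ζ₀ inv`: the family of local invariants at the primes of `S` attached to
  ONE global primitive `p`-th root of unity `ζ₀` — this is the `inv` of Route R (`H62.LocalInv`,
  the argument of `H62.rpairing` and of `H62.RECStatement`); existence
  (`exists_localInvFamily`) and `H43.LocalInjP S inv` (`localInjP_of_family`), the C4 input of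
  `H43.rPackage_localCriterion`.
-/

set_option autoImplicit false

open CategoryTheory groupCohomology ExtCitation

noncomputable section

namespace Fermat.Agent.S55.H26

open Fermat.Agent.S55.H49

section Local

variable (p : ℕ) [Fact p.Prime] (q : ℕ) [Fact q.Prime]

/-- **(TRACE)** for the local invariant; remaining leaves: CMP, ROOT. -/
theorem localTrace_of_cmp_root (hCMP : LocalInvCompStatement p q)
    (hROOT : RootExtractStatement p q) : LocalInvTraceStatement p q :=
  localInvTrace_of_leaves p q (H63.localFieldLevelsStatement q) (H40.localLevelsStatement q)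
    (H51.zetaStatement p q) H55.Shapiro.shapiroSurj hCMP hROOT (H66.c3_inv q) (H66.c3_invInfl q)
    (H66.c3_unram q)

/-- **(INJ)** for the local invariant; remaining leaf: CMP. -/
theorem localInvInj_of_cmp (hCMP : LocalInvCompStatement p q) : LocalInvInjStatement p q :=
  localInvInj_of_leaves p q (H63.localFieldLevelsStatement q) (H40.localLevelsStatement q)
    (H51.zetaStatement p q) H17.shapiroResStatement H55.Shapiro.shapiroInj
    (H72.corrEExists p q (H63.localFieldLevelsStatement q)) hCMP
    (H65.kummerDescentStatement p q (H63.localFieldLevelsStatement q)) (H66.c3_inv q)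

/-- **(L) at `q`** on level-constant cohomology; remaining leaves: CMP, ROOT. -/
theorem localInj_of_cmp_root (hCMP : LocalInvCompStatement p q)
    (hROOT : RootExtractStatement p q) (ζ : PadicAlgCl q) (hζ : IsPrimitiveRoot ζ p)
    (inv : Hlc (Dloc q) (mu (chiLoc p q)) 2 →ₗ[ZMod p] ZMod p) (hinv : IsLocalInv p q ζ inv) :
    LocalInjStatement (Dloc q) (chiLoc p q) inv :=
  localInj_of_leaves p q localInjOfCoresSurj H80.coresSurjLeaf (H40.localLevelsStatement q)
    (localTrace_of_cmp_root p q hCMP hROOT) (localInvInj_of_cmp p q hCMP) ζ hζ inv hinv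

/-- `𝔽_p(χ)` is smooth for the local level datum. -/
theorem smooth_mu_chiLoc : (Dloc q).Smooth (mu (chiLoc p q)) := by
  obtain ⟨F₁, hF₁, h1⟩ := Fermat.Agent.S29.H81.cycloChar_finiteLevel p
  obtain ⟨F, hF, hle, hN⟩ := (H40.localLevelsStatement q).1 F₁ hF₁
  refine ⟨F, hF, hN, fun s hs m => ?_⟩
  have h2 : cycloChar p (localGaloisToGlobal q s) = 1 :=
    h1 _ fun x hx => (IntermediateField.mem_fixingSubgroup_iff _ _).mp hs x (hle hx)
  rw [mu_ρ_apply]
  have h3 : chiLoc p q s = 1 := h2
  rw [h3, Units.val_one, one_mul]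

/-- **The local invariant on the Prelude's `continuousH2`**: `invP` is computed on the class of a
level cocycle `c` by an invariant `inv` with `IsLocalInv p q ζ inv` on the class of the
level-constant cocycle with the same values. -/
def IsPreludeLocalInv (ζ : PadicAlgCl q)
    (invP : continuousH2 (localGaloisToGlobal q) (mu (chiLoc p q)) →ₗ[ZMod p] ZMod p) : Prop :=
  ∃ inv : Hlc (Dloc q) (mu (chiLoc p q)) 2 →ₗ[ZMod p] ZMod p, IsLocalInv p q ζ inv ∧
    ∀ (c : levelCocycles₂ (localGaloisToGlobal q) (mu (chiLoc p q)))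
      (z : cyc (lcComplex (Dloc q) (mu (chiLoc p q))) 2),
      (∀ g : Fin 2 → GalQ q, lcVal z g = c.1 (g 0, g 1)) →
        invP (continuousH2π (localGaloisToGlobal q) (mu (chiLoc p q)) c) =
          inv ((cls (lcComplex (Dloc q) (mu (chiLoc p q))) 2).hom z)

/-- Existence of the Prelude-level local invariant, from (LI1) and the degree-2 bridge. -/
theorem exists_isPreludeLocalInv (hLI1 : LocalInvExistsStatement p q) (ζ : PadicAlgCl q)
    (hζ : IsPrimitiveRoot ζ p) :
    ∃ invP : continuousH2 (localGaloisToGlobal q) (mu (chiLoc p q)) →ₗ[ZMod p] ZMod p,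
      IsPreludeLocalInv p q ζ invP := by
  obtain ⟨inv, hinv⟩ := hLI1 ζ hζ
  obtain ⟨e, -, he2⟩ := H99.bridgeLocal2All (ZMod p) (GalQ q) (localGaloisToGlobal q)
    (mu (chiLoc p q)) (smooth_mu_chiLoc p q)
  exact ⟨inv ∘ₗ e.toLinearMap, inv, hinv, fun c z hz => congrArg inv (he2 c z hz)⟩

/-- **(L) on the Prelude's local `H²`**, for every Prelude-level local invariant; remaining
leaves: CMP, ROOT. -/
theorem localInjPrelude_of_isPreludeLocalInv (hCMP : LocalInvCompStatement p q)
    (hROOT : RootExtractStatement p q) (ζ : PadicAlgCl q) (hζ : IsPrimitiveRoot ζ p)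
    (invP : continuousH2 (localGaloisToGlobal q) (mu (chiLoc p q)) →ₗ[ZMod p] ZMod p)
    (h : IsPreludeLocalInv p q ζ invP) :
    LocalInjPreludeStatement (localGaloisToGlobal q) (chiLoc p q) invP := by
  obtain ⟨inv, hinv, hc⟩ := h
  obtain ⟨e, he1, he2⟩ := H99.bridgeLocal2All (ZMod p) (GalQ q) (localGaloisToGlobal q)
    (mu (chiLoc p q)) (smooth_mu_chiLoc p q)
  have hL := localInjPrelude_of_bridge H99.bridgeLocal2All (localGaloisToGlobal q) (chiLoc p q)
    inv (localInj_of_cmp_root p q hCMP hROOT ζ hζ inv hinv) e he2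
  have heq : invP = inv ∘ₗ e.toLinearMap := by
    refine LinearMap.ext fun y => ?_
    obtain ⟨c, rfl⟩ := Submodule.mkQ_surjective _ y
    obtain ⟨z, hz⟩ := he1 c
    have h1 := hc c z hz
    have h2 := he2 c z hz
    show invP (continuousH2π _ _ c) = inv (e (continuousH2π _ _ c))
    rw [h1]
    exact congrArg inv h2.symm
  rw [heq]
  exact hL

end Local

section Family

variable (p : ℕ) [Fact p.Prime] (S : Finset Nat.Primes)

/-- **The family of local invariants of Route R** attached to one global primitive `p`-th root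
of unity `ζ₀ ∈ ℚ̄`: at every `q ∈ S`, `inv q` is the Prelude-level local invariant relative to
`ζ = padicEmbedding q ζ₀`. -/
def IsLocalInvFamily (ζ₀ : AlgebraicClosure ℚ)
    (inv : ∀ q : ↥S, continuousH2 (primeLocalToGlobal q.1)
      (Rep.res (primeLocalToGlobal q.1) (H43.muRep p)) →ₗ[ZMod p] ZMod p) : Prop :=
  ∀ q : ↥S, haveI : Fact ((q.1 : ℕ)).Prime := ⟨q.1.2⟩
    IsPreludeLocalInv p (q.1 : ℕ) (padicEmbedding (q.1 : ℕ) ζ₀) (inv q)

/-- Existence of the family of local invariants, from (LI1) at every prime. -/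
theorem exists_localInvFamily (hLI1 : ∀ (q : ℕ) [Fact q.Prime], LocalInvExistsStatement p q)
    (ζ₀ : AlgebraicClosure ℚ) (hζ₀ : IsPrimitiveRoot ζ₀ p) :
    ∃ inv : ∀ q : ↥S, continuousH2 (primeLocalToGlobal q.1)
      (Rep.res (primeLocalToGlobal q.1) (H43.muRep p)) →ₗ[ZMod p] ZMod p,
      IsLocalInvFamily p S ζ₀ inv := by
  have h : ∀ q : ↥S, ∃ invP : continuousH2 (primeLocalToGlobal q.1)
      (Rep.res (primeLocalToGlobal q.1) (H43.muRep p)) →ₗ[ZMod p] ZMod p,
      haveI : Fact ((q.1 : ℕ)).Prime := ⟨q.1.2⟩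
      IsPreludeLocalInv p (q.1 : ℕ) (padicEmbedding (q.1 : ℕ) ζ₀) invP := by
    intro q
    have : Fact ((q.1 : ℕ)).Prime := ⟨q.1.2⟩
    exact exists_isPreludeLocalInv p (q.1 : ℕ) (hLI1 (q.1 : ℕ)) _
      (hζ₀.map_of_injective (padicEmbedding (q.1 : ℕ)).injective)
  choose inv hinv using h
  exact ⟨inv, hinv⟩

/-- **`H43.LocalInjP S inv`** (the C4 input of the local criterion of Route R) for every family
of local invariants; remaining leaves: CMP, ROOT. -/
theorem localInjP_of_family
    (hCMP : ∀ (q : ℕ) [Fact q.Prime], LocalInvCompStatement p q)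
    (hROOT : ∀ (q : ℕ) [Fact q.Prime], RootExtractStatement p q)
    (ζ₀ : AlgebraicClosure ℚ) (hζ₀ : IsPrimitiveRoot ζ₀ p)
    (inv : ∀ q : ↥S, continuousH2 (primeLocalToGlobal q.1)
      (Rep.res (primeLocalToGlobal q.1) (H43.muRep p)) →ₗ[ZMod p] ZMod p)
    (hinv : IsLocalInvFamily p S ζ₀ inv) : H43.LocalInjP S inv := by
  refine localInjP_of_prelude p S inv fun q => ?_
  have : Fact ((q.1 : ℕ)).Prime := ⟨q.1.2⟩
  exact localInjPrelude_of_isPreludeLocalInv p (q.1 : ℕ) (hCMP (q.1 : ℕ)) (hROOT (q.1 : ℕ))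
    (padicEmbedding (q.1 : ℕ) ζ₀) (hζ₀.map_of_injective (padicEmbedding (q.1 : ℕ)).injective)
    (inv q) (hinv q)

end Family

end Fermat.Agent.S55.H26

end
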