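import Fermat.Agent.S55.H26.LocalFinal
import Fermat.Agent.S55.H3.LocalInvComp
import Fermat.Agent.S55.H76.InvResFinal

/-!
# S55 / C4 (helper26): the local package, UNCONDITIONAL

With (CMP) on main (`H3.localInvComp`, helper3) and C3's `LeafInvRes` (`H76.leafInvRes_holds`),
every leaf of C4 is a theorem.  Exports, without hypotheses:

* `localInvComp_holds : LocalInvCompStatement p q` (CMP);
* `localInj_holds`: **(L)** on level-constant cohomology, for every invariant with `IsLocalInv`;
* `localTrace_holds`, `localInvInj_holds`: (TRACE), (INJ);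
* `localInjPrelude_holds`: (L) on the Prelude's `continuousH2`;
* `localInjP_holds : H43.LocalInjP S inv` for every family of local invariants
  (`IsLocalInvFamily p S ζ₀ inv`), the C4 input of the local criterion of Route R;
  the family exists by `exists_localInvFamily_holds`.
-/

set_option autoImplicit false

open CategoryTheory groupCohomology ExtCitation

noncomputable section

namespace Fermat.Agent.S55.H26

open Fermat.Agent.S55.H49

section Local

variable (p : ℕ) [Fact p.Prime] (q : ℕ) [Fact q.Prime]

/-- **(CMP)**, unconditional: `inv_{ℚ_q} ∘ aug_* = inv_E ∘ (Shapiro restriction)`. -/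
theorem localInvComp_holds : LocalInvCompStatement p q :=
  H3.localInvComp p q (H66.c3_inv q) (H66.c3_invInfl q) (H76.leafInvRes_holds q)
    (H63.localFieldLevelsStatement q)

/-- **(TRACE)** for the local invariant, unconditional. -/
theorem localTrace_holds : LocalInvTraceStatement p q :=
  localTrace_of_cmp p q (localInvComp_holds p q)

/-- **(INJ)** for the local invariant, unconditional. -/
theorem localInvInj_holds : LocalInvInjStatement p q :=
  localInvInj_of_cmp p q (localInvComp_holds p q)

/-- **(L) at `q`** on level-constant cohomology, unconditional: for every invariant `inv` with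
`IsLocalInv p q ζ inv`, a class `x ∈ H²(G_q, K)` with `inv (f_* x) = 0` for all
`f : K ⟶ 𝔽_p(χ)` is zero. -/
theorem localInj_holds (ζ : PadicAlgCl q) (hζ : IsPrimitiveRoot ζ p)
    (inv : Hlc (Dloc q) (mu (chiLoc p q)) 2 →ₗ[ZMod p] ZMod p) (hinv : IsLocalInv p q ζ inv) :
    LocalInjStatement (Dloc q) (chiLoc p q) inv :=
  localInj_of_cmp p q (localInvComp_holds p q) ζ hζ inv hinv

/-- **(L) on the Prelude's local `H²`**, unconditional. -/
theorem localInjPrelude_holds (ζ : PadicAlgCl q) (hζ : IsPrimitiveRoot ζ p)
    (invP : continuousH2 (localGaloisToGlobal q) (mu (chiLoc p q)) →ₗ[ZMod p] ZMod p)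
    (h : IsPreludeLocalInv p q ζ invP) :
    LocalInjPreludeStatement (localGaloisToGlobal q) (chiLoc p q) invP :=
  localInjPrelude_of_isPreludeLocalInv p q (localInvComp_holds p q) (rootExtract_holds p q)
    ζ hζ invP h

end Local

section Family

variable (p : ℕ) [Fact p.Prime] (S : Finset Nat.Primes)

/-- **`H43.LocalInjP S inv`, unconditional**, for every family of local invariants attached to
a global primitive `p`-th root of unity. -/
theorem localInjP_holds (ζ₀ : AlgebraicClosure ℚ) (hζ₀ : IsPrimitiveRoot ζ₀ p)
    (inv : ∀ q : ↥S, continuousH2 (primeLocalToGlobal q.1)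
      (Rep.res (primeLocalToGlobal q.1) (H43.muRep p)) →ₗ[ZMod p] ZMod p)
    (hinv : IsLocalInvFamily p S ζ₀ inv) : H43.LocalInjP S inv :=
  localInjP_of_cmp p S (fun q _ => localInvComp_holds p q) ζ₀ hζ₀ inv hinv

/-- The family of local invariants exists and satisfies (L): the two C4 inputs of Route R. -/
theorem exists_localInvFamily_localInjP (ζ₀ : AlgebraicClosure ℚ) (hζ₀ : IsPrimitiveRoot ζ₀ p) :
    ∃ inv : ∀ q : ↥S, continuousH2 (primeLocalToGlobal q.1)
      (Rep.res (primeLocalToGlobal q.1) (H43.muRep p)) →ₗ[ZMod p] ZMod p,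
      IsLocalInvFamily p S ζ₀ inv ∧ H43.LocalInjP S inv := by
  obtain ⟨inv, hinv⟩ := exists_localInvFamily_holds p S ζ₀ hζ₀
  exact ⟨inv, hinv, localInjP_holds p S ζ₀ hζ₀ inv hinv⟩

end Family

end Fermat.Agent.S55.H26

end
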