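import Fermat.Agent.S55.H26.LocalInvPlan

/-!
# S55 / C4 (helper26): the Hilbert pairing on `Hom_cont(G_E, 𝔽_p)` — statements

For a subgroup `H` (in the local case `H = Gal(Ω/E)`, `E ∋ μ_p`) let `X_H = levelHoms D H` be the
space of level-constant homomorphisms `H → k`.  For `χ, ψ ∈ X_H` the product
`(h₁, h₂) ↦ χ h₁ * ψ h₂` is a level-constant 2-cocycle of `H` with trivial coefficients; by
Shapiro it is the restriction of a unique class of `H²(G, k[G ⧸ H])`, whose image under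
`ι_H = inv ∘ aug_*` is the HILBERT PAIRING `⟨χ, ψ⟩_H` (`= inv_E (χ ∪ ψ)`).

Exports for C9a (isotropy count): existence (bilinear), antisymmetry, nondegeneracy, and the
bound `dim X_E ≤ dim Eˣ/Eˣᵖ`.
-/

set_option autoImplicit false

open CategoryTheory

noncomputable section

namespace Fermat.Agent.S55.H26

open Fermat.Agent.S55.H49

section Generic

variable {G : Type} [Group G] {k : Type} [Field k]

/-- The space `X_H` of level-constant homomorphisms `H → k`. -/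
def levelHoms (D : LevelDatum G) (H : Subgroup G) : Submodule k (H → k) where
  carrier := {χ | (∀ h₁ h₂ : H, χ (h₁ * h₂) = χ h₁ + χ h₂) ∧ IsLevelFun₁ D H χ}
  add_mem' := by
    rintro χ ψ ⟨hχ, F, hF, hχF⟩ ⟨hψ, F', hF', hψF⟩
    refine ⟨fun h₁ h₂ => ?_, F ⊔ F', D.sup hF hF', fun h n hn => ?_⟩
    · simp only [Pi.add_apply, hχ, hψ]
      abel
    · simp only [Pi.add_apply]
      rw [hχF h n (D.sub_antitone le_sup_left hn), hψF h n (D.sub_antitone le_sup_right hn)]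
  zero_mem' := ⟨fun _ _ => by simp, ⊥, D.bot, fun _ _ _ => rfl⟩
  smul_mem' := by
    rintro c χ ⟨hχ, F, hF, hχF⟩
    refine ⟨fun h₁ h₂ => ?_, F, hF, fun h n hn => ?_⟩
    · simp only [Pi.smul_apply, hχ, smul_add]
    · simp only [Pi.smul_apply]
      rw [hχF h n hn]

/-- `B` is the Hilbert pairing of `H` (relative to `inv`): `B χ ψ = inv (aug_* [z])` for every
level 2-cocycle `z : G² → k[G ⧸ H]` whose Shapiro restriction is the product cocycle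
`(h₁, h₂) ↦ χ h₁ * ψ h₂`. -/
def IsHilbert (D : LevelDatum G) (χ₀ : G →* kˣ) (inv : Hlc D (mu χ₀) 2 →ₗ[k] k) (H : Subgroup G)
    (hχ : ∀ s ∈ H, χ₀ s = 1) (B : levelHoms (k := k) D H →ₗ[k] levelHoms (k := k) D H →ₗ[k] k) :
    Prop :=
  ∀ (χ ψ : levelHoms (k := k) D H) (z : cyc (lcComplex D (permRep k H)) 2),
    (∀ h₁ h₂ : H, shapiroRes D H z (h₁, h₂) = χ.1 h₁ * ψ.1 h₂) →
      B χ ψ = inv (hlcMap D (augChar χ₀ H hχ) 2 ((cls (lcComplex D (permRep k H)) 2).hom z))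

end Generic

/-- **Leaf (HB-EX)**, generic (from `ShapiroSurjStatement`, `ShapiroInjStatement`): the Hilbert
pairing exists (a bilinear form), and it is alternating up to sign:
`B χ ψ + B ψ χ = 0` (`χ(h₁)ψ(h₂) + ψ(h₁)χ(h₂) = -d(χψ)(h₁,h₂)`). -/
def HilbertExistsStatement : Prop :=
  ∀ (G : Type) [Group G] (k : Type) [Field k] (D : LevelDatum G), D.HasNormalLevels →
    ∀ (χ₀ : G →* kˣ) (inv : Hlc D (mu χ₀) 2 →ₗ[k] k) (H : Subgroup G)
      (F : IntermediateField ℚ (AlgebraicClosure ℚ)), D.Lev F → D.sub F ≤ H → H.FiniteIndex →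
      ∀ hχ : ∀ s ∈ H, χ₀ s = 1,
        ∃ B : levelHoms (k := k) D H →ₗ[k] levelHoms (k := k) D H →ₗ[k] k,
          IsHilbert D χ₀ inv H hχ B ∧ ∀ χ ψ, B χ ψ + B ψ χ = 0

section Concrete

open Fermat.Agent.S55.H66

variable (p : ℕ) [Fact p.Prime] (q : ℕ) [Fact q.Prime]

/-- **Leaf (HB-ND)**: nondegeneracy of the Hilbert pairing of `E ∋ ζ`.
Proof: `χ ≠ 0` cuts out a cyclic `L_χ = E(α)/E` of degree `p`; `b ∈ Eˣ` not a norm from `L_χ`
(`H66.LeafNormIndex`); `ψ_b` its Kummer character (`σ β = ζ^{ψ_b σ} β`, `β^p = b`).  With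
`u σ := β^{χ̃ σ}` (`0 ≤ χ̃ < p`): `ζ^{ψ_b(σ) χ(τ)} = (du)(σ,τ) / b^{[χ̃σ + χ̃τ ≥ p]}`, so by
`LocalInvCompStatement` `⟨ψ_b, χ⟩ = -inv (infl (cycClass σ₀ b)) ≠ 0` (`LeafCycZero`,
`LeafInflInj`, `LeafInv`). -/
def HilbertNondegStatement : Prop :=
  ∀ ζ : PadicAlgCl q, IsPrimitiveRoot ζ p →
    ∀ inv : Hlc (Dloc q) (mu (chiLoc p q)) 2 →ₗ[ZMod p] ZMod p, IsLocalInv p q ζ inv →
    ∀ (E : IntermediateField ℚ_[q] (PadicAlgCl q)) [FiniteDimensional ℚ_[q] E]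
      (hχ : ∀ s ∈ E.fixingSubgroup, chiLoc p q s = 1)
      (B : levelHoms (k := ZMod p) (Dloc q) E.fixingSubgroup →ₗ[ZMod p]
        levelHoms (k := ZMod p) (Dloc q) E.fixingSubgroup →ₗ[ZMod p] ZMod p),
      IsHilbert (Dloc q) (chiLoc p q) inv E.fixingSubgroup hχ B →
        ∀ χ : levelHoms (k := ZMod p) (Dloc q) E.fixingSubgroup, χ ≠ 0 → ∃ ψ, B ψ χ ≠ 0

/-- **Leaf (HB-DIM)**: Kummer theory, `dim X_E ≤ dim Eˣ/Eˣᵖ`: there is a surjection from `Eˣ`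
onto `X_E` killing `p`-th powers, `b ↦ ψ_b`.  (Every nonzero `χ ∈ X_E` has cyclic fixed field
`E(β)`, `β^p = b ∈ E`; Mathlib's Kummer theory.)  With `H66.LeafPowIndex`:
`dim X_E ≤ 2 + [E : ℚ_p]·[q = p]`. -/
def HilbertDimStatement : Prop :=
  ∀ ζ : PadicAlgCl q, IsPrimitiveRoot ζ p →
    ∀ (E : IntermediateField ℚ_[q] (PadicAlgCl q)) [FiniteDimensional ℚ_[q] E], ζ ∈ E →
      ∃ κ : Additive Eˣ →+ levelHoms (k := ZMod p) (Dloc q) E.fixingSubgroup,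
        Function.Surjective κ ∧ ∀ b : Eˣ, κ (Additive.ofMul (b ^ p)) = 0

end Concrete

end Fermat.Agent.S55.H26

end
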