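import Fermat.Agent.S55.H26.LocalTop
import Fermat.Agent.S55.H65.RootExtract
import Fermat.Agent.S55.H40.LocalInvFinal

/-!
# S55 / C4 (helper26): the local package modulo (CMP) only

(ROOT) (`H65.rootExtractStatement`) and (LI1) (`H40.localInvExistsStatement`) are discharged; the
only remaining hypothesis of C4 is `LocalInvCompStatement p q` (CMP, `inv ∘ cores = inv`).

* `exists_localInvFamily_holds`: the family of local invariants of Route R exists, unconditionally;
* `localInj_of_cmp`, `localTrace_of_cmp`: (L), (TRACE) on level-constant cohomology;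
* `localInjP_of_cmp`: `H43.LocalInjP S inv` for every family of local invariants.
-/

set_option autoImplicit false

open CategoryTheory groupCohomology ExtCitation

noncomputable section

namespace Fermat.Agent.S55.H26

open Fermat.Agent.S55.H49

section Local

variable (p : ℕ) [Fact p.Prime] (q : ℕ) [Fact q.Prime]

/-- (ROOT), unconditional. -/
theorem rootExtract_holds : RootExtractStatement p q :=
  H65.rootExtractStatement p q (H63.localFieldLevelsStatement q)

/-- **(TRACE)** for the local invariant; remaining leaf: CMP. -/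
theorem localTrace_of_cmp (hCMP : LocalInvCompStatement p q) : LocalInvTraceStatement p q :=
  localTrace_of_cmp_root p q hCMP (rootExtract_holds p q)

/-- **(L) at `q`** on level-constant cohomology; remaining leaf: CMP. -/
theorem localInj_of_cmp (hCMP : LocalInvCompStatement p q) (ζ : PadicAlgCl q)
    (hζ : IsPrimitiveRoot ζ p) (inv : Hlc (Dloc q) (mu (chiLoc p q)) 2 →ₗ[ZMod p] ZMod p)
    (hinv : IsLocalInv p q ζ inv) : LocalInjStatement (Dloc q) (chiLoc p q) inv :=
  localInj_of_cmp_root p q hCMP (rootExtract_holds p q) ζ hζ inv hinv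

/-- Existence of the local invariant on level-constant cohomology, unconditional. -/
theorem exists_isLocalInv (ζ : PadicAlgCl q) (hζ : IsPrimitiveRoot ζ p) :
    ∃ inv : Hlc (Dloc q) (mu (chiLoc p q)) 2 →ₗ[ZMod p] ZMod p, IsLocalInv p q ζ inv :=
  H40.localInvExistsStatement p q ζ hζ

/-- Existence of the Prelude-level local invariant, unconditional. -/
theorem exists_isPreludeLocalInv_holds (ζ : PadicAlgCl q) (hζ : IsPrimitiveRoot ζ p) :
    ∃ invP : continuousH2 (localGaloisToGlobal q) (mu (chiLoc p q)) →ₗ[ZMod p] ZMod p,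
      IsPreludeLocalInv p q ζ invP :=
  exists_isPreludeLocalInv p q (H40.localInvExistsStatement p q) ζ hζ

end Local

section Family

variable (p : ℕ) [Fact p.Prime] (S : Finset Nat.Primes)

/-- **The family of local invariants of Route R exists** (unconditional). -/
theorem exists_localInvFamily_holds (ζ₀ : AlgebraicClosure ℚ) (hζ₀ : IsPrimitiveRoot ζ₀ p) :
    ∃ inv : ∀ q : ↥S, continuousH2 (primeLocalToGlobal q.1)
      (Rep.res (primeLocalToGlobal q.1) (H43.muRep p)) →ₗ[ZMod p] ZMod p,
      IsLocalInvFamily p S ζ₀ inv :=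
  exists_localInvFamily p S (fun q _ => H40.localInvExistsStatement p q) ζ₀ hζ₀

/-- **`H43.LocalInjP S inv`** for every family of local invariants; remaining leaf: CMP. -/
theorem localInjP_of_cmp (hCMP : ∀ (q : ℕ) [Fact q.Prime], LocalInvCompStatement p q)
    (ζ₀ : AlgebraicClosure ℚ) (hζ₀ : IsPrimitiveRoot ζ₀ p)
    (inv : ∀ q : ↥S, continuousH2 (primeLocalToGlobal q.1)
      (Rep.res (primeLocalToGlobal q.1) (H43.muRep p)) →ₗ[ZMod p] ZMod p)
    (hinv : IsLocalInvFamily p S ζ₀ inv) : H43.LocalInjP S inv :=
  localInjP_of_family p S hCMP (fun q _ => rootExtract_holds p q) ζ₀ hζ₀ inv hinv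

end Family

end Fermat.Agent.S55.H26

end
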