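import Mathlib
import Fermat.Prelude.Def_DualSelmer_ExtConditions
import Fermat.Agent.S55.H49.LevelDefs

/-!
# S55 / C4 (helper26): local duality — definitions and the formal reduction for `Start`

Everything is stated in the cochain model of C0 (`Fermat.Agent.S55.H49.LevelDefs`): a group `G`
with a level datum `D`, level-constant cohomology `Hlc D M n`.

* `hlcMap D f n`     : the map induced on `Hlc` by a morphism of coefficients;
* `mu χ`             : the one-dimensional representation `k(χ)` (`μ_p` for `χ` the cyclotomic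
                       character);
* `permRep k U`      : the permutation representation `k[G ⧸ U]`;
* `augChar χ U hU`   : the twisted augmentation `k[G ⧸ U] ⟶ k(χ)`, `[g] ↦ χ g` (for `χ` trivial
                       on `U`): on cohomology this is the corestriction from `U` to `G`;
* `orbitMap K U m h` : the map `k[G ⧸ U] ⟶ K`, `[g] ↦ g • m`, for a `U`-fixed vector `m`.
-/

set_option autoImplicit false

open CategoryTheory

noncomputable section

namespace Fermat.Agent.S55.H26

open Fermat.Agent.S55.H49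

variable {G : Type} [Group G] {k : Type} [Field k]

/-- The map induced on level-constant cohomology by a morphism of coefficients. -/
def hlcMap (D : LevelDatum G) {A B : Rep.{0} k G} (f : A ⟶ B) (n : ℕ) :
    Hlc D A n →ₗ[k] Hlc D B n :=
  (HomologicalComplex.homologyMap (lcMapCoeff D f) n).hom

theorem hlcMap_comp (D : LevelDatum G) {A B C : Rep.{0} k G} (f : A ⟶ B) (g : B ⟶ C) (n : ℕ) :
    hlcMap D (f ≫ g) n = hlcMap D g n ∘ₗ hlcMap D f n := by
  have h : lcMapCoeff D (f ≫ g) = lcMapCoeff D f ≫ lcMapCoeff D g := rfl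
  unfold hlcMap
  rw [h, HomologicalComplex.homologyMap_comp]
  rfl

theorem hlcMap_comp_apply (D : LevelDatum G) {A B C : Rep.{0} k G} (f : A ⟶ B) (g : B ⟶ C)
    (n : ℕ) (x : Hlc D A n) : hlcMap D (f ≫ g) n x = hlcMap D g n (hlcMap D f n x) := by
  rw [hlcMap_comp]; rfl

theorem hlcMap_id (D : LevelDatum G) (A : Rep.{0} k G) (n : ℕ) :
    hlcMap D (𝟙 A) n = LinearMap.id := by
  have h : lcMapCoeff D (𝟙 A) = 𝟙 (lcComplex D A) := rfl
  unfold hlcMap
  rw [h, HomologicalComplex.homologyMap_id]
  rfl

/-- The one-dimensional representation `k(χ)`. -/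
abbrev mu (χ : G →* kˣ) : Rep.{0} k G := groupCohomology.ofChar χ

theorem mu_ρ_apply (χ : G →* kˣ) (g : G) (c : k) : (mu χ).ρ g c = (χ g : k) * c := rfl

/-- The permutation representation `k[G ⧸ U]`. -/
abbrev permRep (k : Type) [Field k] (U : Subgroup G) : Rep.{0} k G :=
  Rep.ofMulAction k G (G ⧸ U)

/-- The function `G ⧸ U → k`, `[g] ↦ χ g`, for a character trivial on `U`. -/
def charQuot (χ : G →* kˣ) (U : Subgroup G) (hU : ∀ s ∈ U, χ s = 1) : G ⧸ U → k :=
  Quotient.lift (fun g : G => (χ g : k)) (by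
    intro a b hab
    have h1 : a⁻¹ * b ∈ U := QuotientGroup.leftRel_apply.mp hab
    have h2 : χ b = χ a := by
      have h3 : χ (a⁻¹ * b) = 1 := hU _ h1
      rw [map_mul, map_inv, inv_mul_eq_one] at h3
      exact h3.symm
    show (χ a : k) = (χ b : k)
    rw [h2])

@[simp]
theorem charQuot_mk (χ : G →* kˣ) (U : Subgroup G) (hU : ∀ s ∈ U, χ s = 1) (g : G) :
    charQuot χ U hU (g : G ⧸ U) = (χ g : k) := rfl

/-- The linear map `k[X] → V` determined by a function `X → V`. -/
def permLift {X V : Type} [AddCommGroup V] [Module k V] (v : X → V) :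
    MonoidAlgebra k X →ₗ[k] V :=
  Finsupp.linearCombination k v ∘ₗ (MonoidAlgebra.coeffLinearEquiv k).toLinearMap

@[simp]
theorem permLift_single {X V : Type} [AddCommGroup V] [Module k V] (v : X → V) (x : X) (r : k) :
    permLift v (MonoidAlgebra.single x r) = r • v x := by
  simp [permLift]

/-- A function `v : X → V` with `v (g • x) = ρ g (v x)` defines a morphism `k[X] ⟶ V`. -/
def permHom {X : Type} [MulAction G X] (V : Rep.{0} k G) (v : X → V)
    (hv : ∀ (g : G) (x : X), v (g • x) = V.ρ g (v x)) : Rep.ofMulAction k G X ⟶ V :=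
  ConcreteCategory.ofHom (C := Rep.{0} k G) (X := Rep.ofMulAction k G X) (Y := V)
    ⟨permLift v, fun g => by
      refine MonoidAlgebra.lhom_ext' fun x => LinearMap.ext fun r => ?_
      simp [hv]⟩

theorem permHom_single {X : Type} [MulAction G X] (V : Rep.{0} k G) (v : X → V)
    (hv : ∀ (g : G) (x : X), v (g • x) = V.ρ g (v x)) (x : X) (r : k) :
    (permHom V v hv).hom (MonoidAlgebra.single x r) = r • v x :=
  permLift_single v x r

/-- The twisted augmentation `k[G ⧸ U] ⟶ k(χ)`, `[g] ↦ χ g`, for `χ` trivial on `U`.  On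
cohomology it is the corestriction from `U` to `G` (Shapiro). -/
def augChar (χ : G →* kˣ) (U : Subgroup G) (hU : ∀ s ∈ U, χ s = 1) : permRep k U ⟶ mu χ :=
  permHom (mu χ) (charQuot χ U hU) (by
    intro g x
    induction x using QuotientGroup.induction_on with
    | H a =>
      show charQuot χ U hU ((g * a : G) : G ⧸ U) = (mu χ).ρ g (charQuot χ U hU (a : G ⧸ U))
      rw [charQuot_mk, charQuot_mk, mu_ρ_apply, map_mul, Units.val_mul])

/-- The function `G ⧸ U → K`, `[g] ↦ g • m`, for a `U`-fixed vector `m`. -/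
def orbitFun (K : Rep.{0} k G) (U : Subgroup G) (m : K) (hm : ∀ s ∈ U, K.ρ s m = m) :
    G ⧸ U → K :=
  Quotient.lift (fun g : G => K.ρ g m) (by
    intro a b hab
    have h1 : a⁻¹ * b ∈ U := QuotientGroup.leftRel_apply.mp hab
    show K.ρ a m = K.ρ b m
    have h2 : K.ρ b m = K.ρ a (K.ρ (a⁻¹ * b) m) := by
      rw [← Module.End.mul_apply, ← map_mul, mul_inv_cancel_left]
    rw [h2, hm _ h1])

@[simp]
theorem orbitFun_mk (K : Rep.{0} k G) (U : Subgroup G) (m : K) (hm : ∀ s ∈ U, K.ρ s m = m)
    (g : G) : orbitFun K U m hm (g : G ⧸ U) = K.ρ g m := rfl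

/-- The morphism `k[G ⧸ U] ⟶ K`, `[g] ↦ g • m`, for a `U`-fixed vector `m`. -/
def orbitMap (K : Rep.{0} k G) (U : Subgroup G) (m : K) (hm : ∀ s ∈ U, K.ρ s m = m) :
    permRep k U ⟶ K :=
  permHom K (orbitFun K U m hm) (by
    intro g x
    induction x using QuotientGroup.induction_on with
    | H a =>
      show orbitFun K U m hm ((g * a : G) : G ⧸ U) = K.ρ g (orbitFun K U m hm (a : G ⧸ U))
      rw [orbitFun_mk, orbitFun_mk, map_mul, Module.End.mul_apply])

/-- `f ∘ (orbit map of m) = augmentation` when `f m = 1`. -/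
theorem orbitMap_comp (χ : G →* kˣ) (K : Rep.{0} k G) (U : Subgroup G)
    (hU : ∀ s ∈ U, χ s = 1) (m : K) (hm : ∀ s ∈ U, K.ρ s m = m) (f : K ⟶ mu χ)
    (hf : f.hom m = (1 : k)) : orbitMap K U m hm ≫ f = augChar χ U hU := by
  refine Rep.hom_ext (Representation.IntertwiningMap.ext ?_)
  refine MonoidAlgebra.lhom_ext' fun x => LinearMap.ext fun r => ?_
  induction x using QuotientGroup.induction_on with
  | H a =>
    show f.hom ((orbitMap K U m hm).hom (MonoidAlgebra.single (a : G ⧸ U) r)) =
      (augChar χ U hU).hom (MonoidAlgebra.single (a : G ⧸ U) r)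
    rw [orbitMap, augChar, permHom_single, permHom_single, orbitFun_mk, charQuot_mk, map_smul,
      Rep.hom_comm_apply, hf, mu_ρ_apply, mul_one]

end Fermat.Agent.S55.H26

end
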