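import Fermat.Agent.S55.H26.LocalInvSpec

/-!
# S55 / C4 (helper26): local injectivity (L) on the Prelude's `continuousH2`

Transport of `LocalInjStatement` (level-constant cohomology `Hlc (localDatum f)`) to the Prelude's
`continuousH2 f` along the degree-2 bridge of C0 (`H49.BridgeLocal2All`, landed by H41/H99): for
any bridge `eμ` of the coefficient module `k(χ)`, the invariant `inv ∘ eμ` on
`continuousH2 f (k(χ))` satisfies (L).
-/

set_option autoImplicit false

open CategoryTheory groupCohomology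

noncomputable section

namespace Fermat.Agent.S55.H26

open Fermat.Agent.S55.H49

variable {k : Type} [Field k] {H : Type} [Group H]

/-- (L) on the Prelude's local `H²`. -/
def LocalInjPreludeStatement (f : H →* GQ) (χ : H →* kˣ)
    (invP : continuousH2 f (mu χ) →ₗ[k] k) : Prop :=
  ∀ N : Rep.{0} k H, (localDatum f).Smooth N → Module.Finite k N →
    ∀ y : continuousH2 f N,
      (∀ φ : N ⟶ mu χ, invP (continuousH2MapHom f φ y) = 0) → y = 0

/-- Naturality of the degree-2 bridges in the coefficients (from their characterisation on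
cocycles). -/
theorem bridge_natural (f : H →* GQ) {A B : Rep.{0} k H} (φ : A ⟶ B)
    (eA : continuousH2 f A ≃ₗ[k] Hlc (localDatum f) A 2)
    (heA1 : ∀ c : levelCocycles₂ f A, ∃ z : cyc (lcComplex (localDatum f) A) 2,
      ∀ g : Fin 2 → H, lcVal z g = c.1 (g 0, g 1))
    (heA2 : ∀ (c : levelCocycles₂ f A) (z : cyc (lcComplex (localDatum f) A) 2),
      (∀ g : Fin 2 → H, lcVal z g = c.1 (g 0, g 1)) →
        eA (continuousH2π f A c) = (cls (lcComplex (localDatum f) A) 2).hom z)
    (eB : continuousH2 f B ≃ₗ[k] Hlc (localDatum f) B 2)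
    (heB2 : ∀ (c : levelCocycles₂ f B) (z : cyc (lcComplex (localDatum f) B) 2),
      (∀ g : Fin 2 → H, lcVal z g = c.1 (g 0, g 1)) →
        eB (continuousH2π f B c) = (cls (lcComplex (localDatum f) B) 2).hom z)
    (y : continuousH2 f A) :
    eB (continuousH2MapHom f φ y) = hlcMap (localDatum f) φ 2 (eA y) := by
  obtain ⟨c, rfl⟩ := Submodule.mkQ_surjective _ y
  obtain ⟨z, hz⟩ := heA1 c
  have h1 : eA ((Submodule.mkQ _) c) = (cls (lcComplex (localDatum f) A) 2).hom z := heA2 c z hz
  rw [h1]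
  have h2 : hlcMap (localDatum f) φ 2 ((cls (lcComplex (localDatum f) A) 2).hom z) =
      (cls (lcComplex (localDatum f) B) 2).hom (cycMap (lcMapCoeff (localDatum f) φ) 2 z) :=
    homologyMap_cls _ 2 z
  rw [h2]
  refine heB2 _ _ fun g => ?_
  show φ.hom (lcVal z g) = φ.hom (c.1 (g 0, g 1))
  rw [hz g]

/-- **(L) on the Prelude's `continuousH2`**, for the invariant `inv ∘ eμ`. -/
theorem localInjPrelude_of_bridge (hB : BridgeLocal2All) (f : H →* GQ) (χ : H →* kˣ)
    (inv : Hlc (localDatum f) (mu χ) 2 →ₗ[k] k) (hL : LocalInjStatement (localDatum f) χ inv)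
    (eμ : continuousH2 f (mu χ) ≃ₗ[k] Hlc (localDatum f) (mu χ) 2)
    (heμ : ∀ (c : levelCocycles₂ f (mu χ)) (z : cyc (lcComplex (localDatum f) (mu χ)) 2),
      (∀ g : Fin 2 → H, lcVal z g = c.1 (g 0, g 1)) →
        eμ (continuousH2π f (mu χ) c) = (cls (lcComplex (localDatum f) (mu χ)) 2).hom z) :
    LocalInjPreludeStatement f χ (inv ∘ₗ eμ.toLinearMap) := by
  intro N hN hfin y hy
  obtain ⟨eN, heN1, heN2⟩ := hB k H f N hN
  have h0 : eN y = 0 := by
    refine hL N hN hfin (eN y) fun φ => ?_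
    rw [← bridge_natural f φ eN heN1 heN2 eμ heμ y]
    exact hy φ
  exact eN.map_eq_zero_iff.mp h0

end Fermat.Agent.S55.H26

end
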