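import Fermat.Agent.S55.H26.LocalDefs

/-!
# S55 / C4 (helper26): the local input of `Start` — surjectivity of `H²_v(K) → H²_v(μ_p)`

`LocNonzeroStatement D χ inv` is the cheapest true local statement that gives `PTPackage.Start`
(`α³_K` epi): for every smooth `K` and every nonzero `f : K ⟶ k(χ)` there is a class
`c ∈ H²(K)` with `inv (f_* c) ≠ 0`.  (With `tr ∘ ∂_v = inv_v` and the naturality of `∂_v` this is
`tr (f_* (∂_v c)) ≠ 0`, i.e. the functional `tr ∘ f_*` on `H³_c(K)` is nonzero.)

It is reduced here, formally (no cohomological dimension, no duality for general modules), to the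
single arithmetic statement `TraceStatement D χ inv`: for cofinally many levels `F'` the
"corestriction" `H²(G, k[G ⧸ U]) → H²(G, k(χ))` (`U = D.sub F'`, induced by the twisted
augmentation) is not killed by `inv`.  In the local case this is `inv_{ℚ_q} ∘ cores = inv_E`
for the finite extension `E` cut out by `U`.
-/

set_option autoImplicit false

open CategoryTheory

noncomputable section

namespace Fermat.Agent.S55.H26

open Fermat.Agent.S55.H49

variable {G : Type} [Group G] {k : Type} [Field k]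

/-- **Leaf (TRACE).**  For every level `F` there is a level `F' ≥ F` on whose subgroup
`U = D.sub F'` the character `χ` is trivial and such that some class
`z ∈ H²(G, k[G ⧸ U])` has `inv (aug_* z) ≠ 0`. -/
def TraceStatement (D : LevelDatum G) (χ : G →* kˣ) (inv : Hlc D (mu χ) 2 →ₗ[k] k) : Prop :=
  ∀ F : IntermediateField ℚ (AlgebraicClosure ℚ), D.Lev F →
    ∃ F' : IntermediateField ℚ (AlgebraicClosure ℚ), D.Lev F' ∧ F ≤ F' ∧
      ∃ hχ : ∀ s ∈ D.sub F', χ s = 1,
        ∃ z : Hlc D (permRep k (D.sub F')) 2,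
          inv (hlcMap D (augChar χ (D.sub F') hχ) 2 z) ≠ 0

/-- **Export (LOC-NONZERO)**, the local input of `PTPackage.Start`: for a smooth module `K` and a
nonzero morphism `f : K ⟶ k(χ)`, some class `c ∈ H²(K)` has `inv (f_* c) ≠ 0`. -/
def LocNonzeroStatement (D : LevelDatum G) (χ : G →* kˣ) (inv : Hlc D (mu χ) 2 →ₗ[k] k) : Prop :=
  ∀ K : Rep.{0} k G, D.Smooth K → ∀ f : K ⟶ mu χ, f ≠ 0 →
    ∃ c : Hlc D K 2, inv (hlcMap D f 2 c) ≠ 0

/-- **Assembly**: (TRACE) ⟹ (LOC-NONZERO). -/
theorem locNonzero_of_trace (D : LevelDatum G) (χ : G →* kˣ) (inv : Hlc D (mu χ) 2 →ₗ[k] k)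
    (h : TraceStatement D χ inv) : LocNonzeroStatement D χ inv := by
  rintro K ⟨F, hF, -, htriv⟩ f hf
  obtain ⟨F', -, hle, hχ, z, hz⟩ := h F hF
  obtain ⟨m, hm⟩ : ∃ m : K, f.hom m ≠ 0 := by
    by_contra hcon
    apply hf
    refine Rep.hom_ext (Representation.IntertwiningMap.ext (LinearMap.ext fun m => ?_))
    by_contra hm
    exact hcon ⟨m, hm⟩
  have hfix : ∀ s ∈ D.sub F', K.ρ s ((f.hom m)⁻¹ • m) = (f.hom m)⁻¹ • m := fun s hs =>
    htriv s (IntermediateField.fixingSubgroup_antitone hle hs) _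
  have hone : f.hom ((f.hom m)⁻¹ • m) = (1 : k) := by
    rw [map_smul, smul_eq_mul, inv_mul_cancel₀ hm]
  refine ⟨hlcMap D (orbitMap K (D.sub F') ((f.hom m)⁻¹ • m) hfix) 2 z, ?_⟩
  rw [← hlcMap_comp_apply, orbitMap_comp χ K (D.sub F') hχ _ hfix f hone]
  exact hz

/-- Consequence in the form "right exactness of `H²` towards `k(χ)`" when `inv` is injective
(i.e. `H²(G, k(χ))` is at most one-dimensional, as for a local field): `f_*` is surjective on
`H²` for every nonzero `f : K ⟶ k(χ)`. -/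
theorem surjective_of_locNonzero (D : LevelDatum G) (χ : G →* kˣ)
    (inv : Hlc D (mu χ) 2 →ₗ[k] k) (hinv : Function.Injective inv)
    (h : LocNonzeroStatement D χ inv) (K : Rep.{0} k G) (hK : D.Smooth K) (f : K ⟶ mu χ)
    (hf : f ≠ 0) : Function.Surjective (hlcMap D f 2) := by
  obtain ⟨c, hc⟩ := h K hK f hf
  intro y
  refine ⟨(inv y * (inv (hlcMap D f 2 c))⁻¹) • c, hinv ?_⟩
  rw [map_smul, map_smul, smul_eq_mul, inv_mul_cancel_right₀ hc]

end Fermat.Agent.S55.H26

end
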